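import Fermat.Agent.PET.Semisimple
import Fermat.Agent.S49.QExp

/-!
# PET: simultaneous eigenbasis for the anemic Hecke algebra

`exists_eigenbasis`: `S_k(Γ₀(N))` has a basis of simultaneous eigenvectors of all elements of
`CuspForm.heckeAlgebra N k S` (`S ⊇ {primes dividing N}`).
`exists_eigenchar_ne_zero`: the eigencharacters separate the points of the Hecke algebra.
-/

namespace Fermat.Agent.PET

open MeasureTheory Set UpperHalfPlane ModularGroup Matrix.SpecialLinearGroup CongruenceSubgroup
open scoped Pointwise Modular MatrixGroups ENNReal NNReal ComplexConjugate ModularForm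

variable (N : ℕ) [NeZero N] (k : ℤ)

/-- The Petersson product as an `InnerProductSpace.Core`. -/
noncomputable def cpetCore : InnerProductSpace.Core ℂ (CuspForm (Gamma0 N) k) where
  inner := cpet
  conj_inner_symm x y := (cpet_conj_symm y x).symm
  re_inner_nonneg x := by
    obtain ⟨c, hc, h⟩ := cpet_self_nonneg x
    rw [h]
    simpa using hc
  add_left := cpet_add_left
  smul_left x y r := cpet_smul_left r x y
  definite _ := eq_zero_of_cpet_self_eq_zero

theorem exists_eigenbasis {S : Set ℕ} (hS : ∀ q : ℕ, q.Prime → q ∣ N → q ∈ S) :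
    ∃ (ι : Type) (_ : Fintype ι) (b : Module.Basis ι ℂ (CuspForm (Gamma0 N) k)),
      ∀ t ∈ CuspForm.heckeAlgebra N k S, ∀ i, ∃ c : ℂ, t (b i) = c • b i := by
  classical
  letI core : InnerProductSpace.Core ℂ (CuspForm (Gamma0 N) k) := cpetCore N k
  letI : NormedAddCommGroup (CuspForm (Gamma0 N) k) := core.toNormedAddCommGroup
  letI : InnerProductSpace ℂ (CuspForm (Gamma0 N) k) := InnerProductSpace.ofCore core.toCore
  haveI : FiniteDimensional ℂ (CuspForm (Gamma0 N) k) := S49.finiteDimensional_cuspForm N k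
  let T : CuspForm.heckeAlgebra N k S → Module.End ℂ (CuspForm (Gamma0 N) k) := fun t => t.1
  have hT : ∀ t, (T t).IsSymmetric := fun t x y =>
    isPetSymm_of_mem_heckeAlgebra N k hS t.2 x y
  have hC : Pairwise (Function.onFun Commute T) := fun s t _ =>
    congrArg Subtype.val (mul_comm s t)
  have hint := LinearMap.IsSymmetric.directSum_isInternal_of_pairwise_commute hT hC
  let v : ∀ χ : CuspForm.heckeAlgebra N k S → ℂ,
      Module.Basis (Module.Basis.ofVectorSpaceIndex ℂ
        (⨅ j, Module.End.eigenspace (T j) (χ j) : Submodule ℂ (CuspForm (Gamma0 N) k))) ℂ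
        (⨅ j, Module.End.eigenspace (T j) (χ j) : Submodule ℂ (CuspForm (Gamma0 N) k)) :=
    fun χ => Module.Basis.ofVectorSpace ℂ _
  let b := hint.collectedBasis v
  refine ⟨_, FiniteDimensional.fintypeBasisIndex b, b, fun t ht i => ⟨i.1 ⟨t, ht⟩, ?_⟩⟩
  have hmem := hint.collectedBasis_mem v i
  have h2 := (Submodule.mem_iInf _).1 hmem ⟨t, ht⟩
  exact Module.End.mem_eigenspace_iff.1 h2

end Fermat.Agent.PET

namespace Fermat.Agent.PET

open CongruenceSubgroup

section eigenchar

variable {V : Type*} [AddCommGroup V] [Module ℂ V]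

/-- The eigencharacter of a common eigenvector of a subalgebra of `End V`. -/
noncomputable def eigenChar (A : Subalgebra ℤ (Module.End ℂ V)) (f : V) (hf : f ≠ 0)
    (h : ∀ s ∈ A, ∃ c : ℂ, s f = c • f) : A →+* ℂ where
  toFun s := (h s.1 s.2).choose
  map_one' := by
    have h1 := (h (1 : A).1 (1 : A).2).choose_spec
    show (h (1 : A).1 (1 : A).2).choose = 1
    generalize (h (1 : A).1 (1 : A).2).choose = c1 at h1 ⊢
    refine smul_left_injective ℂ hf ?_
    show c1 • f = (1 : ℂ) • f
    rw [← h1]; simp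
  map_mul' s t := by
    have h1 := (h (s * t).1 (s * t).2).choose_spec
    have hs := (h s.1 s.2).choose_spec
    have ht := (h t.1 t.2).choose_spec
    show (h (s * t).1 (s * t).2).choose = (h s.1 s.2).choose * (h t.1 t.2).choose
    generalize (h (s * t).1 (s * t).2).choose = cst at h1 ⊢
    generalize (h s.1 s.2).choose = cs at hs ⊢
    generalize (h t.1 t.2).choose = ct at ht ⊢
    refine smul_left_injective ℂ hf ?_
    show cst • f = (cs * ct) • f
    rw [← h1, Subalgebra.coe_mul, Module.End.mul_apply, ht, map_smul, hs, smul_smul, mul_comm]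
  map_zero' := by
    have h1 := (h (0 : A).1 (0 : A).2).choose_spec
    show (h (0 : A).1 (0 : A).2).choose = 0
    generalize (h (0 : A).1 (0 : A).2).choose = c0 at h1 ⊢
    refine smul_left_injective ℂ hf ?_
    show c0 • f = (0 : ℂ) • f
    rw [← h1]; simp
  map_add' s t := by
    have h1 := (h (s + t).1 (s + t).2).choose_spec
    have hs := (h s.1 s.2).choose_spec
    have ht := (h t.1 t.2).choose_spec
    show (h (s + t).1 (s + t).2).choose = (h s.1 s.2).choose + (h t.1 t.2).choose
    generalize (h (s + t).1 (s + t).2).choose = cst at h1 ⊢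
    generalize (h s.1 s.2).choose = cs at hs ⊢
    generalize (h t.1 t.2).choose = ct at ht ⊢
    refine smul_left_injective ℂ hf ?_
    show cst • f = (cs + ct) • f
    rw [← h1, Subalgebra.coe_add, LinearMap.add_apply, hs, ht, add_smul]

theorem eigenChar_spec (A : Subalgebra ℤ (Module.End ℂ V)) (f : V) (hf : f ≠ 0)
    (h : ∀ s ∈ A, ∃ c : ℂ, s f = c • f) (s : A) : (s : Module.End ℂ V) f = eigenChar A f hf h s • f :=
  (h s.1 s.2).choose_spec

end eigenchar

variable (N : ℕ) [NeZero N] (k : ℤ)

/-- The eigencharacters of simultaneous eigenforms separate the points of the anemic Hecke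
algebra: for `t ≠ 0` there are an eigenform `f ≠ 0` and a ring homomorphism `χ` to `ℂ` with
`s f = χ s • f` for all `s` and `χ t ≠ 0`. -/
theorem exists_eigenchar_ne_zero {S : Set ℕ} (hS : ∀ q : ℕ, q.Prime → q ∣ N → q ∈ S)
    {t : CuspForm.heckeAlgebra N k S} (ht : t ≠ 0) :
    ∃ (f : CuspForm (Gamma0 N) k) (χ : CuspForm.heckeAlgebra N k S →+* ℂ), f ≠ 0 ∧
      (∀ s : CuspForm.heckeAlgebra N k S,
        (s : Module.End ℂ (CuspForm (Gamma0 N) k)) f = χ s • f) ∧ χ t ≠ 0 := by
  obtain ⟨ι, _, b, hb⟩ := exists_eigenbasis N k hS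
  have hex : ∃ i, (t : Module.End ℂ (CuspForm (Gamma0 N) k)) (b i) ≠ 0 := by
    by_contra hcon
    push Not at hcon
    refine ht (Subtype.ext ?_)
    exact b.ext fun i => by simpa using hcon i
  obtain ⟨i, hi⟩ := hex
  have hbi : b i ≠ 0 := b.ne_zero i
  refine ⟨b i, eigenChar _ (b i) hbi fun s hs => hb s hs i, hbi,
    eigenChar_spec _ (b i) hbi _, fun h0 => hi ?_⟩
  rw [eigenChar_spec _ (b i) hbi (fun s hs => hb s hs i) t, h0, zero_smul]

end Fermat.Agent.PET
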