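import Mathlib

/-!
# PET (Petersson), generic part: fundamental domains of subgroups, means

`G` a countable group acting measurably on `α` with an invariant measure `μ`, `F` a fundamental
domain for `G`, `H ≤ G` a subgroup.  Then `⋃ q : G ⧸ H, (q.out)⁻¹ • F` is a fundamental domain for
`H`.  For subgroups `H` of an ambient group `𝔾` with a fundamental domain of finite measure we
define `covol`, `fdIntegral`, `mean` and prove: independence of the fundamental domain, behaviour
under finite-index subgroups and under conjugation.
-/

namespace Fermat.Agent.PET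

open MeasureTheory Set
open scoped Pointwise

section generic

variable {G α E : Type*} [Group G] [MulAction G α] [MeasurableSpace α] {μ : Measure α}
  [MeasurableConstSMul G α] [SMulInvariantMeasure G α μ] [Countable G]
  [NormedAddCommGroup E] [NormedSpace ℝ E]

/-- The union of the translates of `F` by the inverses of coset representatives. -/
def cosetUnion (H : Subgroup G) (F : Set α) : Set α := ⋃ q : G ⧸ H, (q.out)⁻¹ • F

theorem isFundamentalDomain_cosetUnion (H : Subgroup G) {F : Set α}
    (hF : IsFundamentalDomain G F μ) : IsFundamentalDomain H (cosetUnion H F) μ := by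
  have hcount : Countable (G ⧸ H) := (QuotientGroup.mk_surjective (s := H)).countable
  refine IsFundamentalDomain.mk'' ?_ ?_ ?_ ?_
  · exact NullMeasurableSet.iUnion fun q => hF.nullMeasurableSet_smul _
  · filter_upwards [hF.ae_covers] with x hx
    obtain ⟨g, hg⟩ := hx
    set q : G ⧸ H := (g : G ⧸ H) with hq
    have hmem : g⁻¹ * q.out ∈ H := by
      rw [← QuotientGroup.eq]
      exact (QuotientGroup.out_eq' q).symm
    refine ⟨⟨g⁻¹ * q.out, hmem⟩⁻¹, ?_⟩
    simp only [cosetUnion, mem_iUnion]
    refine ⟨q, ?_⟩
    rw [mem_smul_set_iff_inv_smul_mem, inv_inv]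
    have : q.out • ((⟨g⁻¹ * q.out, hmem⟩ : H)⁻¹ • x) = g • x := by
      rw [Subgroup.smul_def, smul_smul]
      congr 1
      simp [mul_inv_rev]
    rw [this]
    exact hg
  · intro h hh
    simp only [cosetUnion, smul_set_iUnion]
    rw [AEDisjoint, iUnion_inter]
    refine (measure_iUnion_null_iff).2 fun q => ?_
    rw [inter_iUnion]
    refine (measure_iUnion_null_iff).2 fun q' => ?_
    have hne : (h : G) * (q.out)⁻¹ ≠ (q'.out)⁻¹ := by
      intro heq
      have h1 : q'.out = q.out * (h : G)⁻¹ := by
        have := congrArg (·⁻¹) heq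
        simpa [mul_inv_rev] using this.symm
      have h2 : q = q' := by
        rw [← QuotientGroup.out_eq' q, ← QuotientGroup.out_eq' q', QuotientGroup.eq, h1]
        simpa using H.inv_mem h.2
      subst h2
      have h3 : (h : G)⁻¹ = 1 :=
        mul_left_cancel (a := q.out) (b := (h : G)⁻¹) (c := 1) (by simpa using h1.symm)
      exact hh (Subtype.ext (by simpa using h3))
    have := hF.aedisjoint hne
    simpa [Function.onFun, AEDisjoint, Subgroup.smul_def, smul_smul] using this
  · intro h
    exact (measurePreserving_smul (h : G) μ).quasiMeasurePreserving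

omit [Countable G] in
theorem setIntegral_smul_set_eq (g : G) (F : Set α) (φ : α → E) :
    ∫ x in g • F, φ x ∂μ = ∫ x in F, φ (g • x) ∂μ := by
  rw [← image_smul]
  exact (measurePreserving_smul g μ).setIntegral_image_emb (measurableEmbedding_const_smul g) φ F

theorem pairwise_aedisjoint_cosetUnion (H : Subgroup G) {F : Set α}
    (hF : IsFundamentalDomain G F μ) :
    Pairwise (Function.onFun (AEDisjoint μ) fun q : G ⧸ H => (q.out)⁻¹ • F) := by
  intro q q' hqq'
  refine hF.aedisjoint (fun heq => hqq' ?_)
  have h1 : q.out = q'.out := inv_injective heq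
  rw [← QuotientGroup.out_eq' q, ← QuotientGroup.out_eq' q', h1]

theorem measure_cosetUnion (H : Subgroup G) [H.FiniteIndex] {F : Set α}
    (hF : IsFundamentalDomain G F μ) : μ (cosetUnion H F) = H.index * μ F := by
  classical
  letI : Fintype (G ⧸ H) := Subgroup.fintypeQuotientOfFiniteIndex
  rw [cosetUnion, measure_iUnion₀ (pairwise_aedisjoint_cosetUnion H hF)
    (fun q => hF.nullMeasurableSet_smul _), tsum_fintype]
  simp only [measure_smul, Finset.sum_const, Finset.card_univ, nsmul_eq_mul]
  rw [Subgroup.index_eq_card, Nat.card_eq_fintype_card]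

theorem setIntegral_cosetUnion (H : Subgroup G) [H.FiniteIndex] {F : Set α}
    (hF : IsFundamentalDomain G F μ) {φ : α → E} (hφ : ∀ (g : G) (x : α), φ (g • x) = φ x)
    (hint : IntegrableOn φ F μ) :
    ∫ x in cosetUnion H F, φ x ∂μ = H.index • ∫ x in F, φ x ∂μ := by
  classical
  letI : Fintype (G ⧸ H) := Subgroup.fintypeQuotientOfFiniteIndex
  have hint' : ∀ q : G ⧸ H, IntegrableOn φ ((q.out)⁻¹ • F) μ := fun q => by
    have := (hF.smul (q.out)⁻¹)
    exact (this.integrableOn_iff hF hφ).2 hint
  rw [cosetUnion, integral_iUnion_ae (fun q => hF.nullMeasurableSet_smul _)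
    (pairwise_aedisjoint_cosetUnion H hF) (integrableOn_finite_iUnion.2 hint'), tsum_fintype]
  simp only [setIntegral_smul_set_eq, hφ, Finset.sum_const, Finset.card_univ]
  rw [Subgroup.index_eq_card, Nat.card_eq_fintype_card]

end generic

end Fermat.Agent.PET
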