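import Mathlib

/-!
# PET: measure of the standard fundamental domain

* `volume_fd_diff_fdo`: the boundary `𝒟 \ 𝒟ᵒ` is a null set for the invariant measure on `ℍ`;
* `volume_fd_lt_top`: `𝒟` has finite invariant measure;
* `aedisjoint_smul_fd`: `g • 𝒟` and `𝒟` are a.e. disjoint for `g ≠ ±1` in `SL(2, ℤ)`.
-/

namespace Fermat.Agent.PET

open MeasureTheory Set UpperHalfPlane ModularGroup
open scoped Pointwise Modular MatrixGroups ENNReal NNReal

theorem volume_eq_zero_of_coe_image {s : Set ℍ}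
    (h : (volume : Measure ℂ) ((↑) '' s) = 0) : (volume : Measure ℍ) s = 0 := by
  rw [UpperHalfPlane.volume_eq_lintegral]
  exact setLIntegral_measure_zero _ _ h

theorem volume_re_eq (c : ℝ) : (volume : Measure ℂ) {z : ℂ | z.re = c} = 0 := by
  have h1 : {z : ℂ | z.re = c} =
      (fun z : ℂ => z + (-(c : ℂ))) ⁻¹' (LinearMap.ker Complex.reLm : Set ℂ) := by
    ext z; simp [← sub_eq_add_neg, sub_eq_zero]
  rw [h1, measure_preimage_add_right]
  refine Measure.addHaar_submodule volume (LinearMap.ker Complex.reLm) ?_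
  intro htop
  have : (1 : ℂ) ∈ LinearMap.ker Complex.reLm := by rw [htop]; trivial
  simp at this

theorem volume_norm_eq_one : (volume : Measure ℂ) {z : ℂ | ‖z‖ = 1} = 0 := by
  have : {z : ℂ | ‖z‖ = 1} = Metric.sphere (0 : ℂ) 1 := by ext z; simp
  rw [this]
  exact Measure.addHaar_sphere volume 0 1

theorem volume_fd_diff_fdo : (volume : Measure ℍ) (𝒟 \ 𝒟ᵒ) = 0 := by
  refine volume_eq_zero_of_coe_image (measure_mono_null ?_
    (measure_union_null volume_norm_eq_one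
      (measure_union_null (volume_re_eq (1 / 2)) (volume_re_eq (-(1 / 2))))))
  rintro _ ⟨z, ⟨hz, hz'⟩, rfl⟩
  simp only [fd, fdo, mem_ofPred_eq, not_and_or, not_lt] at hz hz'
  rcases hz' with h | h
  · left
    have h1 : Complex.normSq (z : ℂ) = 1 := le_antisymm h hz.1
    have : ‖(z : ℂ)‖ ^ 2 = 1 := by rw [← Complex.normSq_eq_norm_sq]; exact h1
    have hn : ‖(z : ℂ)‖ = 1 := by
      have h0 : 0 ≤ ‖(z : ℂ)‖ := norm_nonneg _
      nlinarith
    exact hn
  · right
    have h1 : |z.re| = 1 / 2 := le_antisymm hz.2 h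
    rcases abs_eq (by norm_num : (0 : ℝ) ≤ 1 / 2) |>.1 h1 with h2 | h2
    · left; exact h2
    · right; exact h2

theorem lintegral_Ici_inv_sq_lt_top :
    ∫⁻ y in Ici (1 / 2 : ℝ), ENNReal.ofReal (y ^ (-2 : ℝ)) < ⊤ := by
  have h := integrableOn_Ioi_rpow_of_lt (show (-2 : ℝ) < -1 by norm_num)
    (show (0 : ℝ) < 1 / 2 by norm_num)
  rw [← integrableOn_Ici_iff_integrableOn_Ioi] at h
  exact h.setLIntegral_lt_top

theorem volume_fd_lt_top : (volume : Measure ℍ) 𝒟 < ⊤ := by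
  rw [UpperHalfPlane.volume_eq_lintegral]
  set S : Set (ℝ × ℝ) := Icc (-(1 / 2) : ℝ) (1 / 2) ×ˢ Ici (1 / 2 : ℝ) with hS
  set f : ℝ × ℝ → ℝ≥0∞ := fun p => ENNReal.ofReal (p.2 ^ (-2 : ℝ)) with hf
  have hsub : ((↑) '' 𝒟 : Set ℂ) ⊆ Complex.measurableEquivRealProd ⁻¹' S := by
    rintro _ ⟨z, hz, rfl⟩
    have h3 := three_le_four_mul_im_sq_of_mem_fd hz
    have him : 0 < z.im := z.im_pos
    simp only [hS, mem_preimage, Complex.measurableEquivRealProd_apply, mem_prod, mem_Icc, mem_Ici]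
    refine ⟨abs_le.1 hz.2, ?_⟩
    show 1 / 2 ≤ z.im
    nlinarith
  have hle : ∀ z : ℂ, z ∈ Complex.measurableEquivRealProd ⁻¹' S →
      ((↑((1 / ‖z.im‖₊) ^ 2 : NNReal) : ℝ≥0∞)) ≤ f (Complex.measurableEquivRealProd z) := by
    intro z hz
    simp only [hS, mem_preimage, Complex.measurableEquivRealProd_apply, mem_prod, mem_Icc,
      mem_Ici] at hz
    have him : 0 < z.im := lt_of_lt_of_le (by norm_num) hz.2
    simp only [hf, Complex.measurableEquivRealProd_apply]
    rw [← ENNReal.ofReal_coe_nnreal]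
    refine ENNReal.ofReal_le_ofReal (le_of_eq ?_)
    simp only [NNReal.coe_pow, NNReal.coe_div, NNReal.coe_one, coe_nnnorm, Real.norm_eq_abs,
      abs_of_pos him]
    rw [Real.rpow_neg him.le, one_div, inv_pow]
    norm_num
  calc ∫⁻ z : ℂ in (↑) '' 𝒟, ↑((1 / ‖z.im‖₊) ^ 2 : NNReal)
      ≤ ∫⁻ z : ℂ in Complex.measurableEquivRealProd ⁻¹' S, ↑((1 / ‖z.im‖₊) ^ 2 : NNReal) :=
        lintegral_mono_set hsub
    _ ≤ ∫⁻ z : ℂ in Complex.measurableEquivRealProd ⁻¹' S,
          f (Complex.measurableEquivRealProd z) := by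
        refine setLIntegral_mono' ?_ hle
        exact Complex.measurableEquivRealProd.measurable
          (measurableSet_Icc.prod measurableSet_Ici)
    _ = ∫⁻ p in S, f p := by
        exact Complex.volume_preserving_equiv_real_prod.setLIntegral_comp_preimage
          (measurableSet_Icc.prod measurableSet_Ici) (by fun_prop)
    _ = ∫⁻ x in Icc (-(1 / 2) : ℝ) (1 / 2), ∫⁻ y in Ici (1 / 2 : ℝ),
          ENNReal.ofReal (y ^ (-2 : ℝ)) := by
        rw [hS, Measure.volume_eq_prod, setLIntegral_prod]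
        exact (by fun_prop : Measurable f).aemeasurable
    _ < ⊤ := by
        rw [setLIntegral_const]
        refine ENNReal.mul_lt_top lintegral_Ici_inv_sq_lt_top ?_
        simp

end Fermat.Agent.PET

namespace Fermat.Agent.PET

open MeasureTheory Set UpperHalfPlane ModularGroup Matrix.SpecialLinearGroup
open scoped Pointwise Modular MatrixGroups ENNReal NNReal

theorem smul_set_SL_eq (g : SL(2, ℤ)) (s : Set ℍ) : g • s = (g : GL (Fin 2) ℝ) • s := rfl

theorem volume_smul_SL (g : SL(2, ℤ)) (s : Set ℍ) :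
    (volume : Measure ℍ) (g • s) = volume s := by
  rw [smul_set_SL_eq, measure_smul]

theorem quasiMeasurePreserving_smul_SL (g : SL(2, ℤ)) :
    Measure.QuasiMeasurePreserving (fun x : ℍ => g • x) volume volume :=
  (measurePreserving_smul (g : GL (Fin 2) ℝ) (volume : Measure ℍ)).quasiMeasurePreserving

theorem measurableSet_fd : MeasurableSet (𝒟 : Set ℍ) := isClosed_fd.measurableSet

theorem nullMeasurableSet_smul_fd (g : SL(2, ℤ)) :
    NullMeasurableSet (g • (𝒟 : Set ℍ)) (volume : Measure ℍ) := by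
  rw [smul_set_SL_eq]
  exact measurableSet_fd.nullMeasurableSet.smul _

theorem aedisjoint_smul_fd {g : SL(2, ℤ)} (hg : g ≠ 1) (hg' : g ≠ -1) :
    AEDisjoint (volume : Measure ℍ) (g • (𝒟 : Set ℍ)) 𝒟 := by
  refine measure_mono_null (t := g • (𝒟 \ 𝒟ᵒ)) ?_ ?_
  · rintro x ⟨⟨z, hz, rfl⟩, hx⟩
    refine ⟨z, ⟨hz, fun hzo => ?_⟩, rfl⟩
    rcases eq_one_or_neg_one_of_mem_fdo_mem_fd hzo hx with h | h
    · exact hg h
    · exact hg' h
  · rw [volume_smul_SL]; exact volume_fd_diff_fdo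

theorem aedisjoint_smul_fd_smul_fd {a b : SL(2, ℤ)} (h1 : a ≠ b) (h2 : a ≠ -b) :
    AEDisjoint (volume : Measure ℍ) (a • (𝒟 : Set ℍ)) (b • (𝒟 : Set ℍ)) := by
  have key : a • (𝒟 : Set ℍ) ∩ b • (𝒟 : Set ℍ) = b • ((b⁻¹ * a) • (𝒟 : Set ℍ) ∩ 𝒟) := by
    rw [smul_set_inter, smul_smul, mul_inv_cancel_left]
  rw [AEDisjoint, key, volume_smul_SL]
  refine aedisjoint_smul_fd (fun h => h1 ?_) (fun h => h2 ?_)
  · have := congrArg (b * ·) h
    simpa using this
  · have := congrArg (b * ·) h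
    simpa using this

/-- The subgroup `±Γ`. -/
def pmSubgroup (Γ : Subgroup SL(2, ℤ)) : Subgroup SL(2, ℤ) where
  carrier := {g | g ∈ Γ ∨ -g ∈ Γ}
  mul_mem' := by
    rintro a b (ha | ha) (hb | hb)
    · exact Or.inl (Γ.mul_mem ha hb)
    · exact Or.inr (by simpa using Γ.mul_mem ha hb)
    · exact Or.inr (by simpa using Γ.mul_mem ha hb)
    · exact Or.inl (by simpa using Γ.mul_mem ha hb)
  one_mem' := Or.inl Γ.one_mem
  inv_mem' := by
    rintro a (ha | ha)
    · exact Or.inl (Γ.inv_mem ha)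
    · exact Or.inr (by simpa using Γ.inv_mem ha)

theorem mem_pmSubgroup {Γ : Subgroup SL(2, ℤ)} {g : SL(2, ℤ)} :
    g ∈ pmSubgroup Γ ↔ g ∈ Γ ∨ -g ∈ Γ := Iff.rfl

theorem le_pmSubgroup (Γ : Subgroup SL(2, ℤ)) : Γ ≤ pmSubgroup Γ := fun _ h => Or.inl h

/-- The fundamental domain of a subgroup `Γ ≤ SL(2, ℤ)` built from the standard one. -/
def fdSL (Γ : Subgroup SL(2, ℤ)) : Set ℍ := ⋃ q : SL(2, ℤ) ⧸ pmSubgroup Γ, (q.out)⁻¹ • (𝒟 : Set ℍ)

theorem countable_SL2Z : Countable SL(2, ℤ) := by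
  have : Countable (Matrix (Fin 2) (Fin 2) ℤ) := (inferInstance : Countable (Fin 2 → Fin 2 → ℤ))
  exact Subtype.val_injective.countable

theorem isFundamentalDomain_fdSL (Γ : Subgroup SL(2, ℤ)) (hΓ : -1 ∉ Γ) :
    IsFundamentalDomain Γ (fdSL Γ) (volume : Measure ℍ) := by
  have := countable_SL2Z
  have hcount : Countable (SL(2, ℤ) ⧸ pmSubgroup Γ) :=
    (QuotientGroup.mk_surjective (s := pmSubgroup Γ)).countable
  refine IsFundamentalDomain.mk'' ?_ ?_ ?_ ?_
  · exact NullMeasurableSet.iUnion fun q => nullMeasurableSet_smul_fd _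
  · refine Filter.Eventually.of_forall fun x => ?_
    obtain ⟨g, hg⟩ := exists_smul_mem_fd x
    set q : SL(2, ℤ) ⧸ pmSubgroup Γ := (g : SL(2, ℤ) ⧸ pmSubgroup Γ) with hq
    have hmem : g⁻¹ * q.out ∈ pmSubgroup Γ := by
      rw [← QuotientGroup.eq]
      exact (QuotientGroup.out_eq' q).symm
    rcases hmem with hmem | hmem
    · refine ⟨⟨g⁻¹ * q.out, hmem⟩⁻¹, ?_⟩
      simp only [fdSL, mem_iUnion]
      refine ⟨q, ?_⟩
      rw [mem_smul_set_iff_inv_smul_mem, inv_inv]
      have : q.out • ((⟨g⁻¹ * q.out, hmem⟩ : Γ)⁻¹ • x) = g • x := by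
        rw [Subgroup.smul_def, smul_smul]
        congr 1
        simp [mul_inv_rev]
      rw [this]
      exact hg
    · refine ⟨⟨-(g⁻¹ * q.out), hmem⟩⁻¹, ?_⟩
      simp only [fdSL, mem_iUnion]
      refine ⟨q, ?_⟩
      rw [mem_smul_set_iff_inv_smul_mem, inv_inv]
      have : q.out • ((⟨-(g⁻¹ * q.out), hmem⟩ : Γ)⁻¹ • x) = (-g) • x := by
        rw [Subgroup.smul_def, smul_smul]
        congr 1
        simp [mul_inv_rev]
      rw [this, SL_neg_smul]
      exact hg
  · intro h hh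
    simp only [fdSL, smul_set_iUnion]
    rw [AEDisjoint, iUnion_inter]
    refine (measure_iUnion_null_iff).2 fun q => ?_
    rw [inter_iUnion]
    refine (measure_iUnion_null_iff).2 fun q' => ?_
    have hh1 : (h : SL(2, ℤ)) ≠ 1 := fun h1 => hh (Subtype.ext h1)
    have hh2 : (h : SL(2, ℤ)) ≠ -1 := fun h1 => hΓ (h1 ▸ h.2)
    have hq_of : ∀ ε : SL(2, ℤ), (ε = 1 ∨ ε = -1) →
        (h : SL(2, ℤ)) * (q.out)⁻¹ = ε * (q'.out)⁻¹ → False := by
      intro ε hε heq
      have hε2 : ε * ε = 1 := by rcases hε with rfl | rfl <;> simp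
      have hεc : ∀ x : SL(2, ℤ), ε * x = x * ε := by rcases hε with rfl | rfl <;> simp
      have h1 : q'.out = q.out * ((h : SL(2, ℤ))⁻¹ * ε) := by
        have e1 : (q'.out)⁻¹ = ε * ((h : SL(2, ℤ)) * (q.out)⁻¹) := by
          rw [heq, ← mul_assoc, hε2, one_mul]
        have := congrArg (·⁻¹) e1
        simp only [inv_inv, mul_inv_rev] at this
        rw [this]
        have hεi : ε⁻¹ = ε := inv_eq_of_mul_eq_one_left hε2
        rw [hεi, mul_assoc]
      have hP : (h : SL(2, ℤ))⁻¹ * ε ∈ pmSubgroup Γ := by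
        rcases hε with rfl | rfl
        · exact Or.inl (by simpa using Γ.inv_mem h.2)
        · exact Or.inr (by simpa using Γ.inv_mem h.2)
      have h2 : q = q' := by
        rw [← QuotientGroup.out_eq' q, ← QuotientGroup.out_eq' q', QuotientGroup.eq, h1]
        simpa using hP
      subst h2
      have h3 : (h : SL(2, ℤ))⁻¹ * ε = 1 :=
        mul_left_cancel (a := q.out) (by simpa using h1.symm)
      have h4 : (h : SL(2, ℤ)) = ε := by
        have := congrArg ((h : SL(2, ℤ)) * ·) h3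
        simpa using this.symm
      rcases hε with rfl | rfl
      · exact hh1 h4
      · exact hh2 h4
    have := aedisjoint_smul_fd_smul_fd (a := (h : SL(2, ℤ)) * (q.out)⁻¹) (b := (q'.out)⁻¹)
      (fun heq => hq_of 1 (Or.inl rfl) (by simp [heq]))
      (fun heq => hq_of (-1) (Or.inr rfl) (by simp [heq]))
    simpa [AEDisjoint, Subgroup.smul_def, smul_smul] using this
  · intro h
    exact quasiMeasurePreserving_smul_SL (h : SL(2, ℤ))

theorem volume_fdSL_lt_top (Γ : Subgroup SL(2, ℤ)) [Γ.FiniteIndex] :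
    (volume : Measure ℍ) (fdSL Γ) < ⊤ := by
  classical
  have : (pmSubgroup Γ).FiniteIndex := Subgroup.finiteIndex_of_le (le_pmSubgroup Γ)
  let _ : Fintype (SL(2, ℤ) ⧸ pmSubgroup Γ) := Subgroup.fintypeQuotientOfFiniteIndex
  refine lt_of_le_of_lt (measure_iUnion_le _) ?_
  rw [tsum_fintype]
  refine ENNReal.sum_lt_top.2 fun q _ => ?_
  rw [volume_smul_SL]
  exact volume_fd_lt_top

end Fermat.Agent.PET
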