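import Fermat.Agent.PET.Inner
import Fermat.Prelude.Def_ModularForm_HeckeOperatorForms

/-!
# PET: the Hecke operator `T_ℓ` (`ℓ ∤ N`) is self-adjoint for the Petersson product

`pet_heckeT : pet k (heckeT k ℓ f) g = pet k f (heckeT k ℓ g)` for cusp forms `f, g` on `Γ₀(N)`.
-/

namespace Fermat.Agent.PET

open MeasureTheory Set UpperHalfPlane ModularGroup Matrix.SpecialLinearGroup CongruenceSubgroup
open scoped Pointwise Modular MatrixGroups ENNReal NNReal ComplexConjugate ModularForm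

/-- The element of `GL(2, ℝ)` with integer entries `a b c d`. -/
noncomputable def intGL (a b c d : ℤ) (h : a * d - b * c ≠ 0) : GL (Fin 2) ℝ :=
  Matrix.GeneralLinearGroup.mkOfDetNeZero !![(a : ℝ), (b : ℝ); (c : ℝ), (d : ℝ)]
    (by rw [Matrix.det_fin_two_of]; exact_mod_cast h)

@[simp] theorem val_intGL (a b c d : ℤ) (h : a * d - b * c ≠ 0) :
    ((intGL a b c d h : GL (Fin 2) ℝ) : Matrix (Fin 2) (Fin 2) ℝ) =
      !![(a : ℝ), (b : ℝ); (c : ℝ), (d : ℝ)] := rfl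

theorem eq_intGL {β : GL (Fin 2) ℝ} {a b c d : ℤ} (h : a * d - b * c ≠ 0)
    (hβ : (β : Matrix (Fin 2) (Fin 2) ℝ) = !![(a : ℝ), (b : ℝ); (c : ℝ), (d : ℝ)]) :
    β = intGL a b c d h := by
  apply Matrix.GeneralLinearGroup.ext
  intro i j
  rw [hβ]
  rfl

theorem det_intGL (a b c d : ℤ) (h : a * d - b * c ≠ 0) :
    ((intGL a b c d h).det : ℝ) = a * d - b * c := by
  rw [Matrix.GeneralLinearGroup.val_det_apply, val_intGL, Matrix.det_fin_two_of]

theorem isRatPos_intGL (a b c d : ℤ) (h : 0 < a * d - b * c) :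
    IsRatPos (intGL a b c d h.ne') := by
  refine ⟨⟨Matrix.GeneralLinearGroup.mkOfDetNeZero !![(a : ℚ), (b : ℚ); (c : ℚ), (d : ℚ)]
    (by rw [Matrix.det_fin_two_of]; exact_mod_cast h.ne'), ?_⟩, ?_⟩
  · apply Matrix.GeneralLinearGroup.ext
    intro i j
    fin_cases i <;> fin_cases j <;> simp [ratGL, Matrix.GeneralLinearGroup.map]
  · rw [det_intGL]; exact_mod_cast h

theorem intGL_mul (a b c d a' b' c' d' : ℤ) (h : a * d - b * c ≠ 0) (h' : a' * d' - b' * c' ≠ 0)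
    (h'' : (a * a' + b * c') * (c * b' + d * d') - (a * b' + b * d') * (c * a' + d * c') ≠ 0) :
    intGL a b c d h * intGL a' b' c' d' h' =
      intGL (a * a' + b * c') (a * b' + b * d') (c * a' + d * c') (c * b' + d * d') h'' := by
  apply eq_intGL
  rw [Matrix.GeneralLinearGroup.coe_mul, val_intGL, val_intGL, Matrix.mul_fin_two]
  push_cast
  rfl

theorem mapGL_eq_intGL (γ : SL(2, ℤ)) :
    (mapGL ℝ γ : GL (Fin 2) ℝ) = intGL (γ 0 0) (γ 0 1) (γ 1 0) (γ 1 1)
      (by have := γ.det_coe; rw [Matrix.det_fin_two] at this; rw [this]; exact one_ne_zero) := by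
  apply eq_intGL
  ext i j
  fin_cases i <;> fin_cases j <;> simp [mapGL]

section scalar

variable {k : ℤ}

theorem slash_intGL_scalar (F : ℍ → ℂ) (c : ℤ) (hc : 0 < c) :
    F ∣[k] intGL c 0 0 c (by simpa using (mul_pos hc hc).ne') = ((c : ℝ) : ℂ) ^ (k - 2) • F := by
  have hcR : (0 : ℝ) < c := by exact_mod_cast hc
  have hdet : ((intGL c 0 0 c (by simpa using (mul_pos hc hc).ne')).det : ℝ) = c * c := by
    rw [det_intGL]; push_cast; ring
  have hdetpos : 0 < ((intGL c 0 0 c (by simpa using (mul_pos hc hc).ne')).det : ℝ) := by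
    rw [hdet]; positivity
  ext τ
  have hsmul : intGL c 0 0 c (by simpa using (mul_pos hc hc).ne') • τ = τ := by
    apply UpperHalfPlane.ext
    rw [UpperHalfPlane.coe_smul_of_det_pos hdetpos]
    simp only [num, denom, val_intGL, Matrix.of_apply, Matrix.cons_val', Matrix.cons_val_zero,
      Matrix.cons_val_one, Matrix.cons_val_fin_one]
    have hc0' : (c : ℂ) ≠ 0 := by exact_mod_cast hc.ne'
    push_cast
    simp only [zero_mul, add_zero, zero_add]
    exact mul_div_cancel_left₀ _ hc0'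
  have hden : denom (intGL c 0 0 c (by simpa using (mul_pos hc hc).ne')) τ = ((c : ℝ) : ℂ) := by
    simp [denom]
  have hσ : σ (intGL c 0 0 c (by simpa using (mul_pos hc hc).ne')) = .refl ℝ ℂ := by
    rw [σ, if_pos hdetpos]
  rw [ModularForm.slash_apply, hsmul, hden, hσ, hdet, abs_of_pos (by positivity)]
  simp only [ContinuousAlgEquiv.refl_apply, Pi.smul_apply, smul_eq_mul]
  have hc0 : (c : ℂ) ≠ 0 := by exact_mod_cast hc.ne'
  push_cast
  rw [mul_assoc, mul_comm (F τ)]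
  congr 1
  rw [mul_zpow, ← zpow_add₀ hc0, ← zpow_add₀ hc0]
  congr 1
  ring

end scalar

end Fermat.Agent.PET

namespace Fermat.Agent.PET

open MeasureTheory Set UpperHalfPlane ModularGroup Matrix.SpecialLinearGroup CongruenceSubgroup
open scoped Pointwise Modular MatrixGroups ENNReal NNReal ComplexConjugate ModularForm

section adjunction

variable {k : ℤ} {F G X : ℍ → ℂ}

/-- Adjunction: slashing by `β` on the left is slashing by the adjugate on the right. -/
theorem pet_slash_left (hF : NiceForm k F) (hG : NiceForm k G) {β β' : GL (Fin 2) ℝ}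
    (hβ : IsRatPos β) (hβ' : IsRatPos β') {c : ℤ} (hc : 0 < c)
    (hmul : β' * β = intGL c 0 0 c (by simpa using (mul_pos hc hc).ne'))
    (hdet : (β.det : ℝ) = c) :
    pet k (F ∣[k] β) G = pet k F (G ∣[k] β') := by
  have hX : NiceForm k (G ∣[k] β') := hG.slash hβ'
  have hc0 : ((c : ℝ) : ℂ) ^ (k - 2) ≠ 0 :=
    zpow_ne_zero _ (by exact_mod_cast hc.ne')
  have h1 : (G ∣[k] β') ∣[k] β = ((c : ℝ) : ℂ) ^ (k - 2) • G := by
    rw [← SlashAction.slash_mul, hmul, slash_intGL_scalar G c hc]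
  have h2 : G = (((c : ℝ) : ℂ) ^ (k - 2))⁻¹ • ((G ∣[k] β') ∣[k] β) := by
    rw [h1, smul_smul, inv_mul_cancel₀ hc0, one_smul]
  calc pet k (F ∣[k] β) G
      = pet k (F ∣[k] β) ((((c : ℝ) : ℂ) ^ (k - 2))⁻¹ • ((G ∣[k] β') ∣[k] β)) :=
        congrArg (pet k (F ∣[k] β)) h2
    _ = (((c : ℝ) : ℂ) ^ (k - 2))⁻¹ * pet k (F ∣[k] β) ((G ∣[k] β') ∣[k] β) :=
        pet_smul_right (hF.slash hβ) (hX.slash hβ) _
    _ = pet k F (G ∣[k] β') := by
        rw [pet_slash_slash hF hX hβ, hdet, ← mul_assoc, inv_mul_cancel₀ hc0, one_mul]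

theorem pet_slash_right_of_inv (hF : NiceForm k F) (hX : NiceForm k X) (γ : SL(2, ℤ))
    (hFγ : F ∣[k] γ = F) : pet k F (X ∣[k] γ) = pet k F X := by
  have h := pet_slash_slash hF hX (isRatPos_mapGL γ)
  have hd : (((mapGL ℝ γ : GL (Fin 2) ℝ).det : ℝ) : ℂ) = 1 := by simp
  rw [hd, one_zpow, one_mul] at h
  have hFγ' : F ∣[k] (mapGL ℝ γ : GL (Fin 2) ℝ) = F := hFγ
  rw [hFγ'] at h
  exact h

end adjunction

section cusp

variable {k : ℤ} {N : ℕ} [NeZero N]

theorem slash_eq_of_mem_Gamma0 (f : CuspForm (Gamma0 N) k) {γ : SL(2, ℤ)} (hγ : γ ∈ Gamma0 N) :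
    (⇑f : ℍ → ℂ) ∣[k] γ = ⇑f :=
  SlashInvariantFormClass.slash_action_eq f (mapGL ℝ γ) ⟨γ, hγ, rfl⟩

theorem niceForm_cuspForm (f : CuspForm (Gamma0 N) k) : NiceForm k (⇑f : ℍ → ℂ) := by
  refine ⟨(CuspFormClass.holo f).continuous, ?_, ?_⟩
  · exact CuspFormClass.petersson_bounded_left k ((Gamma0 N).map (mapGL ℝ)) f f
  · refine ⟨N, NeZero.ne N, fun γ hγ => slash_eq_of_mem_Gamma0 f ?_⟩
    rw [Gamma_mem] at hγ
    rw [Gamma0_mem]
    exact hγ.2.2.1

end cusp

end Fermat.Agent.PET
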