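import Fermat.Agent.PET.HeckeAdj

/-!
# PET: `T_ℓ` is self-adjoint (`ℓ ∤ N`)
-/

namespace Fermat.Agent.PET

open MeasureTheory Set UpperHalfPlane ModularGroup Matrix.SpecialLinearGroup CongruenceSubgroup
open scoped Pointwise Modular MatrixGroups ENNReal NNReal ComplexConjugate ModularForm

/-- `[[a, b], [c, d]]` as an element of `SL(2, ℤ)`. -/
def slOf (a b c d : ℤ) (h : a * d - b * c = 1) : SL(2, ℤ) :=
  ⟨!![a, b; c, d], by rw [Matrix.det_fin_two_of]; exact h⟩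

theorem mapGL_slOf (a b c d : ℤ) (h : a * d - b * c = 1) :
    (mapGL ℝ (slOf a b c d h) : GL (Fin 2) ℝ) = intGL a b c d (by rw [h]; exact one_ne_zero) := by
  rw [mapGL_eq_intGL]
  rfl

theorem slOf_mem_Gamma0 {N : ℕ} (a b c d : ℤ) (h : a * d - b * c = 1) (hc : (N : ℤ) ∣ c) :
    slOf a b c d h ∈ Gamma0 N := by
  rw [Gamma0_mem]
  simpa [slOf, ZMod.intCast_zmod_eq_zero_iff_dvd] using hc

theorem heckeMatrix_eq_intGL {ℓ : ℕ} (hℓ : ℓ ≠ 0) (j : ℕ) :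
    ModularForm.heckeMatrix ℓ j = intGL 1 j 0 ℓ (by simpa using hℓ) := by
  apply eq_intGL
  rw [ModularForm.val_heckeMatrix hℓ]
  simp

theorem heckeDiagMatrix_eq_intGL {ℓ : ℕ} (hℓ : ℓ ≠ 0) :
    ModularForm.heckeDiagMatrix ℓ = intGL ℓ 0 0 1 (by simpa using hℓ) := by
  apply eq_intGL
  rw [ModularForm.val_heckeDiagMatrix hℓ]
  simp

end Fermat.Agent.PET

namespace Fermat.Agent.PET

open MeasureTheory Set UpperHalfPlane ModularGroup Matrix.SpecialLinearGroup CongruenceSubgroup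
open scoped Pointwise Modular MatrixGroups ENNReal NNReal ComplexConjugate ModularForm

theorem intGL_mul_eq {a b c d a' b' c' d' A B C D : ℤ} (h : a * d - b * c ≠ 0)
    (h' : a' * d' - b' * c' ≠ 0) (H : A * D - B * C ≠ 0)
    (hA : A = a * a' + b * c') (hB : B = a * b' + b * d') (hC : C = c * a' + d * c')
    (hD : D = c * b' + d * d') :
    intGL a b c d h * intGL a' b' c' d' h' = intGL A B C D H := by
  subst hA hB hC hD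
  exact intGL_mul a b c d a' b' c' d' h h' H

section main

variable {k : ℤ} {N : ℕ} [NeZero N] {ℓ : ℕ}

/-- slashing a form on `Γ₀(N)` by `γ * β`, `γ ∈ Γ₀(N)`. -/
theorem slash_mapGL_mul (f : CuspForm (Gamma0 N) k) {γ : SL(2, ℤ)} (hγ : γ ∈ Gamma0 N)
    (β : GL (Fin 2) ℝ) : (⇑f : ℍ → ℂ) ∣[k] ((mapGL ℝ γ : GL (Fin 2) ℝ) * β) = (⇑f) ∣[k] β := by
  rw [SlashAction.slash_mul]
  congr 1
  exact slash_eq_of_mem_Gamma0 f hγ

/-- `pet f (g ∣ (β * γ)) = pet f (g ∣ β)` for `γ ∈ Γ₀(N)`. -/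
theorem pet_slash_mul_mapGL (f g : CuspForm (Gamma0 N) k) {γ : SL(2, ℤ)} (hγ : γ ∈ Gamma0 N)
    {β : GL (Fin 2) ℝ} (hβ : IsRatPos β) :
    pet k ⇑f ((⇑g : ℍ → ℂ) ∣[k] (β * (mapGL ℝ γ : GL (Fin 2) ℝ))) = pet k ⇑f ((⇑g) ∣[k] β) := by
  rw [SlashAction.slash_mul]
  exact pet_slash_right_of_inv (niceForm_cuspForm f) ((niceForm_cuspForm g).slash hβ) γ
    (slash_eq_of_mem_Gamma0 f hγ)

theorem pet_heckeT (hℓ : ℓ.Prime) (hℓN : ¬ ℓ ∣ N) (f g : CuspForm (Gamma0 N) k) :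
    pet k (ModularForm.heckeT k ℓ ⇑f) ⇑g = pet k ⇑f (ModularForm.heckeT k ℓ ⇑g) := by
  have hℓ0 : ℓ ≠ 0 := hℓ.ne_zero
  have hℓpos : (0 : ℤ) < ℓ := by exact_mod_cast hℓ.pos
  have hF := niceForm_cuspForm f
  have hG := niceForm_cuspForm g
  -- determinants
  have d0 : (1 : ℤ) * ℓ - 0 * 0 ≠ 0 := by simpa using hℓ0
  have dI : (ℓ : ℤ) * 1 - 0 * 0 ≠ 0 := by simpa using hℓ0
  have dS : (ℓ : ℤ) * ℓ - 0 * 0 ≠ 0 := by simpa using hℓ0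
  have p0 : (0 : ℤ) < 1 * ℓ - 0 * 0 := by simpa using hℓpos
  have pI : (0 : ℤ) < (ℓ : ℤ) * 1 - 0 * 0 := by simpa using hℓpos
  have r0 : IsRatPos (intGL 1 0 0 ℓ d0) := isRatPos_intGL 1 0 0 ℓ p0
  have rI : IsRatPos (intGL ℓ 0 0 1 dI) := isRatPos_intGL ℓ 0 0 1 pI
  have dj : ∀ j : ℕ, (1 : ℤ) * ℓ - j * 0 ≠ 0 := fun j => by simpa using hℓ0
  have pj : ∀ j : ℕ, (0 : ℤ) < 1 * ℓ - j * 0 := fun j => by simpa using hℓpos
  have rj : ∀ j : ℕ, IsRatPos (intGL 1 j 0 ℓ (dj j)) := fun j => isRatPos_intGL 1 j 0 ℓ (pj j)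
  have dj' : ∀ j : ℕ, (ℓ : ℤ) * 1 - (-j) * 0 ≠ 0 := fun j => by simpa using hℓ0
  have pj' : ∀ j : ℕ, (0 : ℤ) < (ℓ : ℤ) * 1 - (-j) * 0 := fun j => by simpa using hℓpos
  have rj' : ∀ j : ℕ, IsRatPos (intGL ℓ (-j) 0 1 (dj' j)) :=
    fun j => isRatPos_intGL ℓ (-j) 0 1 (pj' j)
  have hM : ∀ j : ℕ, ModularForm.heckeMatrix ℓ j = intGL 1 j 0 ℓ (dj j) :=
    fun j => heckeMatrix_eq_intGL hℓ0 j
  have hMI : ModularForm.heckeDiagMatrix ℓ = intGL ℓ 0 0 1 dI := heckeDiagMatrix_eq_intGL hℓ0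
  have hM0 : intGL 1 (0 : ℕ) 0 ℓ (dj 0) = intGL 1 0 0 ℓ d0 := by congr 1
  -- (D): P0 = P∞
  have key : pet k ⇑f ((⇑g : ℍ → ℂ) ∣[k] intGL 1 0 0 ℓ d0) =
      pet k ⇑f ((⇑g : ℍ → ℂ) ∣[k] intGL ℓ 0 0 1 dI) := by
    have hcop : IsCoprime (ℓ : ℤ) (N : ℤ) :=
      Nat.isCoprime_iff_coprime.2 ((Nat.Prime.coprime_iff_not_dvd hℓ).2 hℓN)
    obtain ⟨a, b, hab⟩ := hcop
    have h1 : a * (ℓ : ℤ) - (-b) * N = 1 := by linarith
    have h2 : (1 : ℤ) * (a * ℓ) - (-(-b)) * (-(N : ℤ)) = 1 := by linarith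
    have m1 : slOf a (-b) N ℓ h1 ∈ Gamma0 N := slOf_mem_Gamma0 _ _ _ _ h1 dvd_rfl
    have m2 : slOf 1 (-(-b)) (-(N : ℤ)) (a * ℓ) h2 ∈ Gamma0 N :=
      slOf_mem_Gamma0 _ _ _ _ h2 (dvd_neg.2 dvd_rfl)
    have e : intGL 1 0 0 ℓ d0 =
        (mapGL ℝ (slOf a (-b) N ℓ h1) : GL (Fin 2) ℝ) * intGL ℓ 0 0 1 dI *
          (mapGL ℝ (slOf 1 (-(-b)) (-(N : ℤ)) (a * ℓ) h2) : GL (Fin 2) ℝ) := by
      rw [mapGL_slOf, mapGL_slOf, intGL_mul_eq (A := a * ℓ) (B := -b) (C := N * ℓ) (D := ℓ)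
        _ _ (by
          have : a * (ℓ : ℤ) * ℓ - -b * (N * ℓ) = ℓ := by linear_combination (ℓ : ℤ) * hab
          rw [this]; exact_mod_cast hℓ0) (by ring) (by ring) (by ring) (by ring),
        intGL_mul_eq (A := 1) (B := 0) (C := 0) (D := ℓ) _ _ d0 (by linear_combination -hab)
          (by ring) (by ring) (by linear_combination -(ℓ : ℤ) * hab)]
    rw [e, pet_slash_mul_mapGL f g m2 (by
      rw [mapGL_slOf]
      exact (isRatPos_intGL _ _ _ _ (by rw [h1]; exact one_pos)).mul rI), slash_mapGL_mul g m1]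
  -- (A)
  have hA : ∀ j : ℕ, pet k ((⇑f : ℍ → ℂ) ∣[k] ModularForm.heckeMatrix ℓ j) ⇑g =
      pet k ⇑f ((⇑g : ℍ → ℂ) ∣[k] intGL ℓ 0 0 1 dI) := by
    intro j
    have hmul : intGL ℓ (-j) 0 1 (dj' j) * intGL 1 j 0 ℓ (dj j) =
        intGL ℓ 0 0 ℓ (by simpa using (mul_pos hℓpos hℓpos).ne') :=
      intGL_mul_eq _ _ _ (by ring) (by ring) (by ring) (by ring)
    have hdet : ((intGL 1 j 0 ℓ (dj j)).det : ℝ) = ((ℓ : ℤ) : ℝ) := by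
      rw [det_intGL]; push_cast; ring
    rw [hM j, pet_slash_left hF hG (rj j) (rj' j) hℓpos hmul hdet]
    -- `intGL ℓ (-j) 0 1 = T^(-j) * intGL ℓ 0 0 1`
    have h1 : (1 : ℤ) * 1 - (-j) * 0 = 1 := by ring
    have m1 : slOf 1 (-j) 0 1 h1 ∈ Gamma0 N := slOf_mem_Gamma0 _ _ _ _ h1 (dvd_zero _)
    have e : intGL ℓ (-j) 0 1 (dj' j) =
        (mapGL ℝ (slOf 1 (-j) 0 1 h1) : GL (Fin 2) ℝ) * intGL ℓ 0 0 1 dI := by
      rw [mapGL_slOf, intGL_mul_eq (A := ℓ) (B := -j) (C := 0) (D := 1) _ _ (dj' j)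
        (by ring) (by ring) (by ring) (by ring)]
    rw [e, slash_mapGL_mul g m1]
  -- (B)
  have hB : pet k ((⇑f : ℍ → ℂ) ∣[k] ModularForm.heckeDiagMatrix ℓ) ⇑g =
      pet k ⇑f ((⇑g : ℍ → ℂ) ∣[k] intGL 1 0 0 ℓ d0) := by
    have hmul : intGL 1 0 0 ℓ d0 * intGL ℓ 0 0 1 dI =
        intGL ℓ 0 0 ℓ (by simpa using (mul_pos hℓpos hℓpos).ne') :=
      intGL_mul_eq _ _ _ (by ring) (by ring) (by ring) (by ring)
    have hdet : ((intGL ℓ 0 0 1 dI).det : ℝ) = ((ℓ : ℤ) : ℝ) := by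
      rw [det_intGL]; push_cast; ring
    rw [hMI, pet_slash_left hF hG rI r0 hℓpos hmul hdet]
  -- (C)
  have hC : ∀ j : ℕ, pet k ⇑f ((⇑g : ℍ → ℂ) ∣[k] ModularForm.heckeMatrix ℓ j) =
      pet k ⇑f ((⇑g : ℍ → ℂ) ∣[k] intGL 1 0 0 ℓ d0) := by
    intro j
    have h1 : (1 : ℤ) * 1 - j * 0 = 1 := by ring
    have m1 : slOf 1 j 0 1 h1 ∈ Gamma0 N := slOf_mem_Gamma0 _ _ _ _ h1 (dvd_zero _)
    have e : intGL 1 j 0 ℓ (dj j) =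
        intGL 1 0 0 ℓ d0 * (mapGL ℝ (slOf 1 j 0 1 h1) : GL (Fin 2) ℝ) := by
      rw [mapGL_slOf, intGL_mul_eq (A := 1) (B := j) (C := 0) (D := ℓ) _ _ (dj j)
        (by ring) (by ring) (by ring) (by ring)]
    rw [hM j, e, pet_slash_mul_mapGL f g m1 r0]
  -- assemble
  have hsumF : ∀ j ∈ Finset.range ℓ, NiceForm k ((⇑f : ℍ → ℂ) ∣[k] ModularForm.heckeMatrix ℓ j) :=
    fun j _ => by rw [hM j]; exact hF.slash (rj j)
  have hsumG : ∀ j ∈ Finset.range ℓ, NiceForm k ((⇑g : ℍ → ℂ) ∣[k] ModularForm.heckeMatrix ℓ j) :=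
    fun j _ => by rw [hM j]; exact hG.slash (rj j)
  have hIF : NiceForm k ((⇑f : ℍ → ℂ) ∣[k] ModularForm.heckeDiagMatrix ℓ) := by
    rw [hMI]; exact hF.slash rI
  have hIG : NiceForm k ((⇑g : ℍ → ℂ) ∣[k] ModularForm.heckeDiagMatrix ℓ) := by
    rw [hMI]; exact hG.slash rI
  rw [ModularForm.heckeT_def, ModularForm.heckeT_def,
    pet_add_left (NiceForm.sum _ hsumF) hIF hG, pet_sum_left _ hsumF hG,
    pet_add_right hF (NiceForm.sum _ hsumG) hIG, pet_sum_right _ hF hsumG,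
    Finset.sum_congr rfl fun j _ => hA j, Finset.sum_congr rfl fun j _ => hC j, hB]
  rw [show pet k ⇑f ((⇑g : ℍ → ℂ) ∣[k] ModularForm.heckeDiagMatrix ℓ) =
    pet k ⇑f ((⇑g : ℍ → ℂ) ∣[k] intGL ℓ 0 0 1 dI) by rw [hMI], key]

end main

end Fermat.Agent.PET
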