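import Fermat.Agent.PET.PMeanPos

/-!
# PET: the Petersson product `pet k F G = pmean (petersson k F G)`

`NiceForm k F`: `F` continuous, `|F|² y^k` bounded, `F ∣[k] γ = F` for `γ` in some `Γ(M)`.
Closed under sums, scalars and slashing by rational matrices of positive determinant.
`pet` is sesquilinear on nice forms, positive definite, and
`pet k (F ∣[k] β) (G ∣[k] β) = (det β)^(k-2) * pet k F G`.
-/

namespace Fermat.Agent.PET

open MeasureTheory Set UpperHalfPlane ModularGroup Matrix.SpecialLinearGroup CongruenceSubgroup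
open scoped Pointwise Modular MatrixGroups ENNReal NNReal ComplexConjugate ModularForm

/-- Rational elements of `GL(2, ℝ)` of positive determinant. -/
def IsRatPos (β : GL (Fin 2) ℝ) : Prop := (∃ g : GL (Fin 2) ℚ, ratGL g = β) ∧ 0 < β.det.val

theorem isRatPos_mapGL (γ : SL(2, ℤ)) : IsRatPos (mapGL ℝ γ) := by
  refine ⟨⟨mapGL ℚ γ, ?_⟩, by simp⟩
  exact map_mapGL (S := ℚ) (T := ℝ) γ

theorem IsRatPos.mul {β β' : GL (Fin 2) ℝ} (h : IsRatPos β) (h' : IsRatPos β') :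
    IsRatPos (β * β') := by
  obtain ⟨⟨g, rfl⟩, hd⟩ := h
  obtain ⟨⟨g', rfl⟩, hd'⟩ := h'
  refine ⟨⟨g * g', by simp [ratGL]⟩, ?_⟩
  rw [map_mul, Units.val_mul]
  exact mul_pos hd hd'

theorem IsRatPos.σ_eq {β : GL (Fin 2) ℝ} (h : IsRatPos β) : σ β = .refl ℝ ℂ := by
  rw [σ, if_pos h.2]

section slash

variable {k : ℤ}

theorem continuous_denom (β : GL (Fin 2) ℝ) : Continuous fun τ : ℍ => denom β τ := by
  unfold denom
  fun_prop

theorem continuous_slash {F : ℍ → ℂ} (hF : Continuous F) (β : GL (Fin 2) ℝ) :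
    Continuous (F ∣[k] β) := by
  rw [ModularForm.slash_def]
  refine ((σ β).continuous.comp (hF.comp (continuous_const_smul β))).mul continuous_const |>.mul ?_
  exact (continuous_denom β).zpow₀ _ fun τ => Or.inl (denom_ne_zero β τ)

end slash

/-- The class of functions on which the Petersson product is defined. -/
structure NiceForm (k : ℤ) (F : ℍ → ℂ) : Prop where
  cont : Continuous F
  bdd : ∃ C : ℝ, ∀ τ, ‖petersson k F F τ‖ ≤ C
  inv : ∃ M : ℕ, M ≠ 0 ∧ ∀ γ ∈ Gamma M, F ∣[k] γ = F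

variable {k : ℤ} {F G : ℍ → ℂ}

theorem norm_petersson_self (k : ℤ) (F : ℍ → ℂ) (τ : ℍ) :
    ‖petersson k F F τ‖ = ‖F τ‖ ^ 2 * τ.im ^ k := by
  simp only [petersson, norm_mul, Complex.norm_conj, norm_zpow, Complex.norm_real,
    Real.norm_of_nonneg τ.im_pos.le]
  ring

theorem norm_petersson_eq (k : ℤ) (F G : ℍ → ℂ) (τ : ℍ) :
    ‖petersson k F G τ‖ = ‖F τ‖ * ‖G τ‖ * τ.im ^ k := by
  simp only [petersson, norm_mul, Complex.norm_conj, norm_zpow, Complex.norm_real,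
    Real.norm_of_nonneg τ.im_pos.le]

theorem norm_petersson_le (k : ℤ) (F G : ℍ → ℂ) (τ : ℍ) :
    ‖petersson k F G τ‖ ≤ (‖petersson k F F τ‖ + ‖petersson k G G τ‖) / 2 := by
  rw [norm_petersson_eq, norm_petersson_self, norm_petersson_self]
  have hy : 0 ≤ τ.im ^ k := zpow_nonneg τ.im_pos.le k
  have h2 : ‖F τ‖ * ‖G τ‖ ≤ (‖F τ‖ ^ 2 + ‖G τ‖ ^ 2) / 2 := by nlinarith [sq_nonneg (‖F τ‖ - ‖G τ‖)]
  calc ‖F τ‖ * ‖G τ‖ * τ.im ^ k ≤ (‖F τ‖ ^ 2 + ‖G τ‖ ^ 2) / 2 * τ.im ^ k :=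
        mul_le_mul_of_nonneg_right h2 hy
    _ = _ := by ring

theorem NiceForm.common (hF : NiceForm k F) (hG : NiceForm k G) :
    ∃ M : ℕ, M ≠ 0 ∧ (∀ γ ∈ Gamma M, F ∣[k] γ = F) ∧ ∀ γ ∈ Gamma M, G ∣[k] γ = G := by
  obtain ⟨M, hM, h1⟩ := hF.inv
  obtain ⟨M', hM', h2⟩ := hG.inv
  refine ⟨M * M', mul_ne_zero hM hM', fun γ hγ => h1 γ ?_, fun γ hγ => h2 γ ?_⟩
  · have h := GammaGL_antitone (dvd_mul_right M M') (⟨γ, hγ, rfl⟩ : mapGL ℝ γ ∈ GammaGL (M * M'))
    obtain ⟨γ', hγ', e⟩ := h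
    exact mapGL_injective e ▸ hγ'
  · have h := GammaGL_antitone (dvd_mul_left M' M) (⟨γ, hγ, rfl⟩ : mapGL ℝ γ ∈ GammaGL (M * M'))
    obtain ⟨γ', hγ', e⟩ := h
    exact mapGL_injective e ▸ hγ'

theorem NiceForm.nice_petersson (hF : NiceForm k F) (hG : NiceForm k G) :
    Nice (petersson k F G) := by
  refine ⟨petersson_continuous k hF.cont hG.cont, ?_, ?_⟩
  · obtain ⟨C, hC⟩ := hF.bdd
    obtain ⟨C', hC'⟩ := hG.bdd
    exact ⟨(C + C') / 2, fun τ => (norm_petersson_le k F G τ).trans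
      (div_le_div_of_nonneg_right (add_le_add (hC τ) (hC' τ)) (by norm_num))⟩
  · obtain ⟨M, hM, h1, h2⟩ := hF.common hG
    refine ⟨M, hM, fun γ hγ τ => ?_⟩
    rw [← petersson_slash_SL, h1 γ hγ, h2 γ hγ]

theorem NiceForm.add (hF : NiceForm k F) (hG : NiceForm k G) : NiceForm k (F + G) := by
  refine ⟨hF.cont.add hG.cont, ?_, ?_⟩
  · obtain ⟨C, hC⟩ := hF.bdd
    obtain ⟨C', hC'⟩ := hG.bdd
    refine ⟨2 * (C + C'), fun τ => ?_⟩
    have h1 := hC τ
    have h2 := hC' τ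
    rw [norm_petersson_self] at h1 h2 ⊢
    have hy : 0 ≤ τ.im ^ k := zpow_nonneg τ.im_pos.le k
    have h3 : ‖(F + G) τ‖ ^ 2 ≤ 2 * (‖F τ‖ ^ 2 + ‖G τ‖ ^ 2) := by
      have := norm_add_le (F τ) (G τ)
      have h0 : 0 ≤ ‖F τ + G τ‖ := norm_nonneg _
      simp only [Pi.add_apply]
      nlinarith [sq_nonneg (‖F τ‖ - ‖G τ‖), norm_nonneg (F τ), norm_nonneg (G τ)]
    calc ‖(F + G) τ‖ ^ 2 * τ.im ^ k ≤ 2 * (‖F τ‖ ^ 2 + ‖G τ‖ ^ 2) * τ.im ^ k :=
          mul_le_mul_of_nonneg_right h3 hy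
      _ = 2 * (‖F τ‖ ^ 2 * τ.im ^ k + ‖G τ‖ ^ 2 * τ.im ^ k) := by ring
      _ ≤ 2 * (C + C') := by linarith
  · obtain ⟨M, hM, h1, h2⟩ := hF.common hG
    exact ⟨M, hM, fun γ hγ => by rw [SlashAction.add_slash, h1 γ hγ, h2 γ hγ]⟩

theorem NiceForm.smul (hF : NiceForm k F) (c : ℂ) : NiceForm k (c • F) := by
  refine ⟨hF.cont.const_smul c, ?_, ?_⟩
  · obtain ⟨C, hC⟩ := hF.bdd
    refine ⟨‖c‖ ^ 2 * C, fun τ => ?_⟩
    have h1 := hC τ
    rw [norm_petersson_self] at h1 ⊢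
    simp only [Pi.smul_apply, smul_eq_mul, norm_mul, mul_pow]
    calc ‖c‖ ^ 2 * ‖F τ‖ ^ 2 * τ.im ^ k = ‖c‖ ^ 2 * (‖F τ‖ ^ 2 * τ.im ^ k) := by ring
      _ ≤ ‖c‖ ^ 2 * C := mul_le_mul_of_nonneg_left h1 (sq_nonneg _)
  · obtain ⟨M, hM, h1⟩ := hF.inv
    exact ⟨M, hM, fun γ hγ => by rw [ModularForm.SL_smul_slash, h1 γ hγ]⟩

theorem NiceForm.zero : NiceForm k (0 : ℍ → ℂ) :=
  ⟨continuous_const, ⟨0, fun τ => by simp [petersson]⟩, ⟨1, one_ne_zero, fun _ _ => by simp⟩⟩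

theorem NiceForm.sum {ι : Type*} (s : Finset ι) {F : ι → ℍ → ℂ} (h : ∀ i ∈ s, NiceForm k (F i)) :
    NiceForm k (∑ i ∈ s, F i) := by
  classical
  induction s using Finset.induction_on with
  | empty => simpa using NiceForm.zero
  | insert a s ha ih =>
    rw [Finset.sum_insert ha]
    exact (h a (Finset.mem_insert_self _ _)).add
      (ih fun i hi => h i (Finset.mem_insert_of_mem hi))

theorem NiceForm.slash (hF : NiceForm k F) {β : GL (Fin 2) ℝ} (hβ : IsRatPos β) :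
    NiceForm k (F ∣[k] β) := by
  refine ⟨continuous_slash hF.cont β, ?_, ?_⟩
  · obtain ⟨C, hC⟩ := hF.bdd
    refine ⟨|β.det.val| ^ (k - 2) * C, fun τ => ?_⟩
    rw [petersson_slash, norm_mul, norm_σ, norm_zpow, Complex.norm_real, Real.norm_eq_abs,
      abs_abs]
    exact mul_le_mul_of_nonneg_left (hC _) (zpow_nonneg (abs_nonneg _) _)
  · obtain ⟨M, hM, h1⟩ := hF.inv
    obtain ⟨⟨g, rfl⟩, -⟩ := hβ
    haveI : NeZero M := ⟨hM⟩
    obtain ⟨N, hN, hle⟩ := exists_Gamma_le_conj' g M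
    refine ⟨N, hN, fun γ hγ => ?_⟩
    have h2 : ConjAct.toConjAct (ratGL g) • (mapGL ℝ γ : GL (Fin 2) ℝ) ∈ GammaGL M :=
      hle (Subgroup.smul_mem_pointwise_smul _ _ _ ⟨γ, hγ, rfl⟩)
    obtain ⟨γ', hγ', e⟩ := h2
    rw [ConjAct.smul_def, ConjAct.ofConjAct_toConjAct] at e
    have e' : ratGL g * mapGL ℝ γ = mapGL ℝ γ' * ratGL g := by
      rw [e]; group
    have h3 : F ∣[k] (mapGL ℝ γ' : GL (Fin 2) ℝ) = F := h1 γ' hγ'
    show (F ∣[k] ratGL g) ∣[k] (mapGL ℝ γ : GL (Fin 2) ℝ) = F ∣[k] ratGL g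
    rw [← SlashAction.slash_mul, e', SlashAction.slash_mul, h3]

end Fermat.Agent.PET

namespace Fermat.Agent.PET

open MeasureTheory Set UpperHalfPlane ModularGroup Matrix.SpecialLinearGroup CongruenceSubgroup
open scoped Pointwise Modular MatrixGroups ENNReal NNReal ComplexConjugate ModularForm

variable {k : ℤ} {F F₁ F₂ G G₁ G₂ : ℍ → ℂ}

/-- The Petersson product. -/
noncomputable def pet (k : ℤ) (F G : ℍ → ℂ) : ℂ := pmean (petersson k F G)

theorem pet_add_left (hF₁ : NiceForm k F₁) (hF₂ : NiceForm k F₂) (hG : NiceForm k G) :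
    pet k (F₁ + F₂) G = pet k F₁ G + pet k F₂ G := by
  rw [pet, pet, pet, ← pmean_add (hF₁.nice_petersson hG) (hF₂.nice_petersson hG)]
  congr 1
  ext τ
  simp [petersson, add_mul]

theorem pet_add_right (hF : NiceForm k F) (hG₁ : NiceForm k G₁) (hG₂ : NiceForm k G₂) :
    pet k F (G₁ + G₂) = pet k F G₁ + pet k F G₂ := by
  rw [pet, pet, pet, ← pmean_add (hF.nice_petersson hG₁) (hF.nice_petersson hG₂)]
  congr 1
  ext τ
  simp [petersson, add_mul, mul_add]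

theorem pet_smul_left (hF : NiceForm k F) (hG : NiceForm k G) (c : ℂ) :
    pet k (c • F) G = conj c * pet k F G := by
  rw [pet, pet, ← pmean_const_mul (hF.nice_petersson hG)]
  congr 1
  ext τ
  simp [petersson, mul_assoc]

theorem pet_smul_right (hF : NiceForm k F) (hG : NiceForm k G) (c : ℂ) :
    pet k F (c • G) = c * pet k F G := by
  rw [pet, pet, ← pmean_const_mul (hF.nice_petersson hG)]
  congr 1
  ext τ
  simp only [petersson, Pi.smul_apply, smul_eq_mul]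
  ring

theorem pet_zero_left (G : ℍ → ℂ) : pet k 0 G = 0 := by
  rw [pet]
  have : petersson k 0 G = fun _ => (0 : ℂ) := by ext τ; simp [petersson]
  rw [this, pmean_zero]

theorem pet_zero_right (F : ℍ → ℂ) : pet k F 0 = 0 := by
  rw [pet]
  have : petersson k F 0 = fun _ => (0 : ℂ) := by ext τ; simp [petersson]
  rw [this, pmean_zero]

theorem pet_sum_left {ι : Type*} (s : Finset ι) {F : ι → ℍ → ℂ} (hF : ∀ i ∈ s, NiceForm k (F i))
    (hG : NiceForm k G) : pet k (∑ i ∈ s, F i) G = ∑ i ∈ s, pet k (F i) G := by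
  classical
  induction s using Finset.induction_on with
  | empty => simpa using pet_zero_left G
  | insert a s ha ih =>
    rw [Finset.sum_insert ha, Finset.sum_insert ha,
      pet_add_left (hF a (Finset.mem_insert_self _ _))
        (NiceForm.sum s fun i hi => hF i (Finset.mem_insert_of_mem hi)) hG,
      ih fun i hi => hF i (Finset.mem_insert_of_mem hi)]

theorem pet_sum_right {ι : Type*} (s : Finset ι) {G : ι → ℍ → ℂ} (hF : NiceForm k F)
    (hG : ∀ i ∈ s, NiceForm k (G i)) : pet k F (∑ i ∈ s, G i) = ∑ i ∈ s, pet k F (G i) := by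
  classical
  induction s using Finset.induction_on with
  | empty => simpa using pet_zero_right F
  | insert a s ha ih =>
    rw [Finset.sum_insert ha, Finset.sum_insert ha,
      pet_add_right hF (hG a (Finset.mem_insert_self _ _))
        (NiceForm.sum s fun i hi => hG i (Finset.mem_insert_of_mem hi)),
      ih fun i hi => hG i (Finset.mem_insert_of_mem hi)]

theorem pet_conj_symm (hF : NiceForm k F) (hG : NiceForm k G) :
    pet k G F = conj (pet k F G) := by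
  rw [pet, pet, ← pmean_conj (hF.nice_petersson hG)]
  congr 1
  ext τ
  exact petersson_symm k F G τ

theorem pet_slash_slash (hF : NiceForm k F) (hG : NiceForm k G) {β : GL (Fin 2) ℝ}
    (hβ : IsRatPos β) :
    pet k (F ∣[k] β) (G ∣[k] β) = ((β.det.val : ℝ) : ℂ) ^ (k - 2) * pet k F G := by
  obtain ⟨g, hg⟩ := hβ.1
  have h1 : petersson k (F ∣[k] β) (G ∣[k] β) =
      fun τ => ((β.det.val : ℝ) : ℂ) ^ (k - 2) * petersson k F G (ratGL g • τ) := by
    ext τ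
    rw [petersson_slash, hβ.σ_eq, abs_of_pos hβ.2, hg]
    rfl
  rw [pet, pet, h1, pmean_const_mul ((hF.nice_petersson hG).comp_ratGL g),
    pmean_comp_ratGL (hF.nice_petersson hG)]

theorem petersson_self_eq (k : ℤ) (F : ℍ → ℂ) (τ : ℍ) :
    petersson k F F τ = ((‖F τ‖ ^ 2 * τ.im ^ k : ℝ) : ℂ) := by
  rw [petersson, Complex.conj_mul']
  push_cast
  rfl

theorem pet_self_nonneg (hF : NiceForm k F) : ∃ c : ℝ, 0 ≤ c ∧ pet k F F = c := by
  have h1 : petersson k F F = fun τ => ((‖F τ‖ ^ 2 * τ.im ^ k : ℝ) : ℂ) :=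
    funext (petersson_self_eq k F)
  rw [pet, h1]
  refine pmean_ofReal_nonneg (fun τ => mul_nonneg (sq_nonneg _) (zpow_nonneg τ.im_pos.le k)) ?_
  rw [← h1]
  exact hF.nice_petersson hF

theorem eq_zero_of_pet_self_eq_zero (hF : NiceForm k F) (h0 : pet k F F = 0) : F = 0 := by
  have h1 : petersson k F F = fun τ => ((‖F τ‖ ^ 2 * τ.im ^ k : ℝ) : ℂ) :=
    funext (petersson_self_eq k F)
  rw [pet, h1] at h0
  have h2 := eq_zero_of_pmean_ofReal_eq_zero
    (fun τ => mul_nonneg (sq_nonneg _) (zpow_nonneg τ.im_pos.le k))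
    (by rw [← h1]; exact hF.nice_petersson hF) h0
  ext τ
  have h3 := h2 τ
  have hy : τ.im ^ k ≠ 0 := zpow_ne_zero _ τ.im_pos.ne'
  have h4 : ‖F τ‖ ^ 2 = 0 := by
    rcases mul_eq_zero.1 h3 with h | h
    · exact h
    · exact absurd h hy
  simpa using h4

end Fermat.Agent.PET
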