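import Fermat.Agent.PET.Mean
import Fermat.Agent.PET.FDMeasure

/-!
# PET: the mean of a function invariant under a principal congruence subgroup

`GammaGL M` is the image of `Γ(M)` in `GL(2, ℝ)`.  For `3 ∣ M`, `M ≠ 0` it has a fundamental domain
of finite measure.  `pmean φ` is the mean of `φ` over a fundamental domain of `Γ(3M)` where `M` is
any level such that `φ` is `Γ(M)`-invariant.  Main results: `pmean_eq_mean` (independence of the
level), `pmean_comp_smul` (invariance under `GL(2, ℚ)`), linearity and positivity.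
-/

namespace Fermat.Agent.PET

open MeasureTheory Set UpperHalfPlane ModularGroup Matrix.SpecialLinearGroup CongruenceSubgroup
open scoped Pointwise Modular MatrixGroups ENNReal NNReal

/-- The image of `Γ(M)` in `GL(2, ℝ)`. -/
noncomputable def GammaGL (M : ℕ) : Subgroup (GL (Fin 2) ℝ) := (Gamma M).map (mapGL ℝ)

theorem mem_GammaGL {M : ℕ} {g : GL (Fin 2) ℝ} :
    g ∈ GammaGL M ↔ ∃ γ ∈ Gamma M, mapGL ℝ γ = g := Subgroup.mem_map

theorem mapGL_smul (γ : SL(2, ℤ)) (τ : ℍ) : (mapGL ℝ γ : GL (Fin 2) ℝ) • τ = γ • τ := rfl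

theorem GammaGL_antitone {M M' : ℕ} (h : M ∣ M') : GammaGL M' ≤ GammaGL M := by
  refine Subgroup.map_mono fun γ hγ => ?_
  rw [Gamma_mem'] at hγ ⊢
  obtain ⟨c, rfl⟩ := h
  have := congrArg (Matrix.SpecialLinearGroup.map (ZMod.castHom (dvd_mul_right M c) (ZMod M))) hγ
  simpa [Matrix.SpecialLinearGroup.ext_iff] using this

theorem countable_GammaGL (M : ℕ) : Countable (GammaGL M) := by
  have := countable_SL2Z
  have : Countable (Gamma M) := Subtype.val_injective.countable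
  exact (Subgroup.equivMapOfInjective (Gamma M) (mapGL ℝ) mapGL_injective).symm.injective.countable

theorem neg_one_notMem_Gamma {M : ℕ} (hM : 3 ≤ M) : (-1 : SL(2, ℤ)) ∉ Gamma M := by
  intro h
  rw [Gamma_mem] at h
  have h1 : ((-1 : ℤ) : ZMod M) = 1 := by simpa using h.1
  have h2 : ((2 : ℤ) : ZMod M) = 0 := by
    have : ((2 : ℤ) : ZMod M) = 1 - ((-1 : ℤ) : ZMod M) := by push_cast; ring
    rw [this, h1, sub_self]
  rw [ZMod.intCast_zmod_eq_zero_iff_dvd] at h2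
  have := Int.le_of_dvd (by norm_num) h2
  omega

theorem hasFD_GammaGL {M : ℕ} (hM : 3 ≤ M) : HasFD (volume : Measure ℍ) (GammaGL M) := by
  haveI : NeZero M := ⟨by omega⟩
  refine ⟨fdSL (Gamma M), ?_, (volume_fdSL_lt_top (Gamma M)).ne⟩
  exact isFundamentalDomain_of_equiv_smul
    (Subgroup.equivMapOfInjective (Gamma M) (mapGL ℝ) mapGL_injective).symm.toEquiv
    (fun g x => by
      obtain ⟨γ, rfl⟩ := (Subgroup.equivMapOfInjective (Gamma M) (mapGL ℝ)
        mapGL_injective).surjective g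
      simp only [MulEquiv.toEquiv_eq_coe, EquivLike.coe_coe, MulEquiv.symm_apply_apply]
      rfl)
    (isFundamentalDomain_fdSL (Gamma M) (neg_one_notMem_Gamma hM))

theorem isArithmetic_GammaGL {M : ℕ} (hM : M ≠ 0) : (GammaGL M).IsArithmetic := by
  haveI : NeZero M := ⟨hM⟩
  exact (inferInstance : ((Gamma M).map (mapGL ℝ)).IsArithmetic)

theorem relIndex_ne_zero_of_isArithmetic {𝒦 ℋ : Subgroup (GL (Fin 2) ℝ)} (h𝒦 : 𝒦.IsArithmetic)
    (hℋ : ℋ.IsArithmetic) : 𝒦.relIndex ℋ ≠ 0 :=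
  (h𝒦.is_commensurable.trans hℋ.is_commensurable.symm).1

end Fermat.Agent.PET

namespace Fermat.Agent.PET

open MeasureTheory Set UpperHalfPlane ModularGroup Matrix.SpecialLinearGroup CongruenceSubgroup
open scoped Pointwise Modular MatrixGroups ENNReal NNReal

/-- `φ` is invariant under the principal congruence subgroup of level `M`. -/
def GammaInv (M : ℕ) (φ : ℍ → ℂ) : Prop := ∀ γ ∈ Gamma M, ∀ τ : ℍ, φ (γ • τ) = φ τ

theorem GammaInv.mono {M M' : ℕ} {φ : ℍ → ℂ} (h : M ∣ M') (hφ : GammaInv M φ) :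
    GammaInv M' φ := by
  intro γ hγ τ
  have h1 : mapGL ℝ γ ∈ GammaGL M' := ⟨γ, hγ, rfl⟩
  obtain ⟨γ', hγ', e⟩ := GammaGL_antitone h h1
  have : γ' = γ := mapGL_injective e
  exact hφ γ (this ▸ hγ') τ

theorem GammaInv.forall_mem_GammaGL {M : ℕ} {φ : ℍ → ℂ} (hφ : GammaInv M φ) :
    ∀ g ∈ GammaGL M, ∀ τ : ℍ, φ (g • τ) = φ τ := by
  rintro g ⟨γ, hγ, rfl⟩ τ
  exact hφ γ hγ τ

/-- `φ` is invariant under some principal congruence subgroup. -/
def CongInv (φ : ℍ → ℂ) : Prop := ∃ M : ℕ, M ≠ 0 ∧ GammaInv M φ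

/-- The class of functions on which `pmean` is defined: continuous, bounded, invariant under some
principal congruence subgroup. -/
structure Nice (φ : ℍ → ℂ) : Prop where
  cont : Continuous φ
  bdd : ∃ C : ℝ, ∀ τ, ‖φ τ‖ ≤ C
  inv : CongInv φ

theorem Nice.integrableOn {φ : ℍ → ℂ} (hφ : Nice φ) {F : Set ℍ}
    (hF : (volume : Measure ℍ) F ≠ ⊤) : IntegrableOn φ F volume := by
  obtain ⟨C, hC⟩ := hφ.bdd
  exact Measure.integrableOn_of_bounded hF hφ.cont.aestronglyMeasurable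
    (Filter.Eventually.of_forall hC)

open Classical in
/-- The mean of a function invariant under some principal congruence subgroup. -/
noncomputable def pmean (φ : ℍ → ℂ) : ℂ :=
  if h : CongInv φ then mean (volume : Measure ℍ) (GammaGL (3 * h.choose)) φ else 0

theorem mean_GammaGL_of_dvd {φ : ℍ → ℂ} (hφ : Nice φ) {M M' : ℕ} (hM : 3 ≤ M) (hM' : M' ≠ 0)
    (hdvd : M ∣ M') (hinv : GammaInv M φ) :
    mean (volume : Measure ℍ) (GammaGL M') φ = mean (volume : Measure ℍ) (GammaGL M) φ := by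
  have := countable_GammaGL M
  have hfd := hasFD_GammaGL hM
  exact mean_of_le hfd (GammaGL_antitone hdvd)
    (relIndex_ne_zero_of_isArithmetic (isArithmetic_GammaGL hM')
      (isArithmetic_GammaGL (by omega))) hinv.forall_mem_GammaGL
    (hφ.integrableOn hfd.measure_fdOf_ne_top)

theorem pmean_eq_mean {φ : ℍ → ℂ} (hφ : Nice φ) {M : ℕ} (hM : 3 ≤ M) (hinv : GammaInv M φ) :
    pmean φ = mean (volume : Measure ℍ) (GammaGL M) φ := by
  rw [pmean, dif_pos hφ.inv]
  set M₀ := hφ.inv.choose with hM₀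
  have hM₀ne : M₀ ≠ 0 := hφ.inv.choose_spec.1
  have hinv₀ : GammaInv M₀ φ := hφ.inv.choose_spec.2
  have h3 : 3 ≤ 3 * M₀ := by omega
  have hne : 3 * M₀ * M ≠ 0 := by
    have : M ≠ 0 := by omega
    positivity
  rw [← mean_GammaGL_of_dvd hφ h3 hne (dvd_mul_right _ _) (hinv₀.mono (dvd_mul_left _ _)),
    ← mean_GammaGL_of_dvd hφ hM hne (dvd_mul_left _ _) hinv]

end Fermat.Agent.PET

namespace Fermat.Agent.PET

open MeasureTheory Set UpperHalfPlane ModularGroup Matrix.SpecialLinearGroup CongruenceSubgroup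
open scoped Pointwise Modular MatrixGroups ENNReal NNReal

/-- The real matrix of a rational one. -/
noncomputable def ratGL (g : GL (Fin 2) ℚ) : GL (Fin 2) ℝ := g.map (Rat.castHom ℝ)

theorem continuous_smul_GL (β : GL (Fin 2) ℝ) : Continuous fun τ : ℍ => β • τ :=
  continuous_const_smul β

theorem GammaInv.comp_of_conj_le {φ : ℍ → ℂ} {M N : ℕ} {β : GL (Fin 2) ℝ}
    (hinv : GammaInv M φ)
    (hle : (ConjAct.toConjAct β • GammaGL N : Subgroup (GL (Fin 2) ℝ)) ≤ GammaGL M) :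
    GammaInv N fun τ => φ (β • τ) := by
  intro γ hγ τ
  show φ (β • (γ • τ)) = φ (β • τ)
  have h1 : ConjAct.toConjAct β • (mapGL ℝ γ : GL (Fin 2) ℝ) ∈ GammaGL M :=
    hle (Subgroup.smul_mem_pointwise_smul _ _ _ ⟨γ, hγ, rfl⟩)
  have h2 := hinv.forall_mem_GammaGL _ h1 (β • τ)
  rw [ConjAct.smul_def] at h2
  simp only [ConjAct.ofConjAct_toConjAct] at h2
  rw [← h2]
  congr 1
  rw [smul_smul, inv_mul_cancel_right, ← smul_smul]
  rfl

theorem Nice.comp_ratGL {φ : ℍ → ℂ} (hφ : Nice φ) (g : GL (Fin 2) ℚ) :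
    Nice fun τ => φ (ratGL g • τ) := by
  refine ⟨hφ.cont.comp (continuous_smul_GL _), ?_, ?_⟩
  · obtain ⟨C, hC⟩ := hφ.bdd
    exact ⟨C, fun τ => hC _⟩
  · obtain ⟨M, hM, hinv⟩ := hφ.inv
    haveI : NeZero M := ⟨hM⟩
    obtain ⟨N, hN, hle⟩ := exists_Gamma_le_conj' g M
    exact ⟨N, hN, hinv.comp_of_conj_le hle⟩

theorem pmean_comp_ratGL {φ : ℍ → ℂ} (hφ : Nice φ) (g : GL (Fin 2) ℚ) :
    pmean (fun τ => φ (ratGL g • τ)) = pmean φ := by
  obtain ⟨M, hM, hinv⟩ := hφ.inv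
  have h3M : 3 ≤ 3 * M := by omega
  have hinv3 : GammaInv (3 * M) φ := hinv.mono (dvd_mul_left _ _)
  haveI : NeZero (3 * M) := ⟨by omega⟩
  obtain ⟨N, hN, hle⟩ := exists_Gamma_le_conj' g (3 * M)
  have h3N : 3 ≤ 3 * N := by omega
  have hle' : (ConjAct.toConjAct (ratGL g) • GammaGL (3 * N) : Subgroup (GL (Fin 2) ℝ)) ≤
      GammaGL (3 * M) :=
    le_trans (Subgroup.pointwise_smul_le_pointwise_smul_iff.2
      (GammaGL_antitone (dvd_mul_left _ _))) hle
  have hinvN : GammaInv (3 * N) fun τ => φ (ratGL g • τ) := hinv3.comp_of_conj_le hle'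
  have hcN := countable_GammaGL (3 * N)
  have hcM := countable_GammaGL (3 * M)
  have hfdN := hasFD_GammaGL h3N
  have hfdM := hasFD_GammaGL h3M
  have harN : (GammaGL (3 * N)).IsArithmetic := isArithmetic_GammaGL (by omega)
  have harM : (GammaGL (3 * M)).IsArithmetic := isArithmetic_GammaGL (by omega)
  have harc : (ConjAct.toConjAct (ratGL g) • GammaGL (3 * N) :
      Subgroup (GL (Fin 2) ℝ)).IsArithmetic := Subgroup.IsArithmetic.conj _ g
  rw [pmean_eq_mean (hφ.comp_ratGL g) h3N hinvN, pmean_eq_mean hφ h3M hinv3,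
    ← mean_conj hfdN (ratGL g) (fun k hk τ => hinv3.forall_mem_GammaGL k (hle' hk) τ)]
  exact mean_of_le hfdM hle' (relIndex_ne_zero_of_isArithmetic harc harM)
    hinv3.forall_mem_GammaGL (hφ.integrableOn hfdM.measure_fdOf_ne_top)

end Fermat.Agent.PET

namespace Fermat.Agent.PET

open MeasureTheory Set UpperHalfPlane ModularGroup Matrix.SpecialLinearGroup CongruenceSubgroup
open scoped Pointwise Modular MatrixGroups ENNReal NNReal ComplexConjugate

/-! ### Linearity -/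

theorem CongInv.common {φ ψ : ℍ → ℂ} (hφ : CongInv φ) (hψ : CongInv ψ) :
    ∃ M : ℕ, 3 ≤ M ∧ GammaInv M φ ∧ GammaInv M ψ := by
  obtain ⟨M, hM, hinv⟩ := hφ
  obtain ⟨M', hM', hinv'⟩ := hψ
  refine ⟨3 * (M * M'), ?_, hinv.mono ?_, hinv'.mono ?_⟩
  · have : 0 < M * M' := Nat.pos_of_ne_zero (mul_ne_zero hM hM')
    omega
  · exact Dvd.dvd.mul_left (dvd_mul_right _ _) _
  · exact Dvd.dvd.mul_left (dvd_mul_left _ _) _

theorem Nice.add {φ ψ : ℍ → ℂ} (hφ : Nice φ) (hψ : Nice ψ) : Nice fun τ => φ τ + ψ τ := by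
  refine ⟨hφ.cont.add hψ.cont, ?_, ?_⟩
  · obtain ⟨C, hC⟩ := hφ.bdd
    obtain ⟨C', hC'⟩ := hψ.bdd
    exact ⟨C + C', fun τ => (norm_add_le _ _).trans (add_le_add (hC τ) (hC' τ))⟩
  · obtain ⟨M, hM, h1, h2⟩ := hφ.inv.common hψ.inv
    exact ⟨M, by omega, fun γ hγ τ => by simp only [h1 γ hγ τ, h2 γ hγ τ]⟩

theorem Nice.const_mul {φ : ℍ → ℂ} (hφ : Nice φ) (c : ℂ) : Nice fun τ => c * φ τ := by
  refine ⟨continuous_const.mul hφ.cont, ?_, ?_⟩
  · obtain ⟨C, hC⟩ := hφ.bdd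
    exact ⟨‖c‖ * C, fun τ => by
      rw [norm_mul]; exact mul_le_mul_of_nonneg_left (hC τ) (norm_nonneg _)⟩
  · obtain ⟨M, hM, h1⟩ := hφ.inv
    exact ⟨M, hM, fun γ hγ τ => by simp only [h1 γ hγ τ]⟩

theorem Nice.conj {φ : ℍ → ℂ} (hφ : Nice φ) : Nice fun τ => conj (φ τ) := by
  refine ⟨Complex.continuous_conj.comp hφ.cont, ?_, ?_⟩
  · obtain ⟨C, hC⟩ := hφ.bdd
    exact ⟨C, fun τ => by simpa using hC τ⟩
  · obtain ⟨M, hM, h1⟩ := hφ.inv
    exact ⟨M, hM, fun γ hγ τ => by simp only [h1 γ hγ τ]⟩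

theorem Nice.zero : Nice fun _ => (0 : ℂ) :=
  ⟨continuous_const, ⟨0, fun _ => by simp⟩, ⟨1, one_ne_zero, fun _ _ _ => rfl⟩⟩

theorem Nice.sum {ι : Type*} (s : Finset ι) {φ : ι → ℍ → ℂ} (h : ∀ i ∈ s, Nice (φ i)) :
    Nice fun τ => ∑ i ∈ s, φ i τ := by
  classical
  induction s using Finset.induction_on with
  | empty => simpa using Nice.zero
  | insert a s ha ih =>
    simp only [Finset.sum_insert ha]
    exact (h a (Finset.mem_insert_self _ _)).add
      (ih fun i hi => h i (Finset.mem_insert_of_mem hi))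

theorem pmean_add {φ ψ : ℍ → ℂ} (hφ : Nice φ) (hψ : Nice ψ) :
    pmean (fun τ => φ τ + ψ τ) = pmean φ + pmean ψ := by
  obtain ⟨M, hM, h1, h2⟩ := hφ.inv.common hψ.inv
  have h12 : GammaInv M fun τ => φ τ + ψ τ := fun γ hγ τ => by simp only [h1 γ hγ τ, h2 γ hγ τ]
  have hfd := hasFD_GammaGL hM
  rw [pmean_eq_mean (hφ.add hψ) hM h12, pmean_eq_mean hφ hM h1, pmean_eq_mean hψ hM h2]
  simp only [mean, fdIntegral]
  rw [integral_add (hφ.integrableOn hfd.measure_fdOf_ne_top)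
    (hψ.integrableOn hfd.measure_fdOf_ne_top), smul_add]

theorem pmean_const_mul {φ : ℍ → ℂ} (hφ : Nice φ) (c : ℂ) :
    pmean (fun τ => c * φ τ) = c * pmean φ := by
  obtain ⟨M, hM, h1⟩ := hφ.inv
  have h3 : 3 ≤ 3 * M := by omega
  have h1' : GammaInv (3 * M) φ := h1.mono (dvd_mul_left _ _)
  have h2 : GammaInv (3 * M) fun τ => c * φ τ := fun γ hγ τ => by simp only [h1' γ hγ τ]
  rw [pmean_eq_mean (hφ.const_mul c) h3 h2, pmean_eq_mean hφ h3 h1']
  simp only [mean, fdIntegral]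
  rw [integral_const_mul, Complex.real_smul, Complex.real_smul]
  ring

theorem pmean_conj {φ : ℍ → ℂ} (hφ : Nice φ) :
    pmean (fun τ => conj (φ τ)) = conj (pmean φ) := by
  obtain ⟨M, hM, h1⟩ := hφ.inv
  have h3 : 3 ≤ 3 * M := by omega
  have h1' : GammaInv (3 * M) φ := h1.mono (dvd_mul_left _ _)
  have h2 : GammaInv (3 * M) fun τ => conj (φ τ) := fun γ hγ τ => by simp only [h1' γ hγ τ]
  rw [pmean_eq_mean hφ.conj h3 h2, pmean_eq_mean hφ h3 h1']
  simp only [mean, fdIntegral]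
  rw [integral_conj, Complex.real_smul, Complex.real_smul, map_mul, Complex.conj_ofReal]

theorem pmean_zero : pmean (fun _ => (0 : ℂ)) = 0 := by
  have := pmean_const_mul Nice.zero 0
  simpa using this

theorem pmean_sum {ι : Type*} (s : Finset ι) {φ : ι → ℍ → ℂ} (h : ∀ i ∈ s, Nice (φ i)) :
    pmean (fun τ => ∑ i ∈ s, φ i τ) = ∑ i ∈ s, pmean (φ i) := by
  classical
  induction s using Finset.induction_on with
  | empty => simpa using pmean_zero
  | insert a s ha ih =>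
    simp only [Finset.sum_insert ha]
    rw [pmean_add (h a (Finset.mem_insert_self _ _))
      (Nice.sum s fun i hi => h i (Finset.mem_insert_of_mem hi)),
      ih fun i hi => h i (Finset.mem_insert_of_mem hi)]

/-! ### Positivity -/

theorem volume_pos_of_isOpen {U : Set ℍ} (hU : IsOpen U) (hne : U.Nonempty) :
    0 < (volume : Measure ℍ) U := by
  rw [UpperHalfPlane.volume_eq_lintegral]
  have hopen : IsOpen ((↑) '' U : Set ℂ) := isOpenEmbedding_coe.isOpenMap U hU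
  have hpos : 0 < (volume : Measure ℂ) ((↑) '' U) := hopen.measure_pos volume (hne.image _)
  rw [pos_iff_ne_zero]
  intro h0
  rw [setLIntegral_eq_zero_iff hopen.measurableSet (by fun_prop)] at h0
  refine hpos.ne' (measure_mono_null (fun z hz => ?_) (ae_iff.1 h0))
  simp only [mem_ofPred_eq, Classical.not_imp]
  refine ⟨hz, ?_⟩
  obtain ⟨w, -, rfl⟩ := hz
  have : (w : ℂ).im ≠ 0 := w.im_pos.ne'
  simpa using this

theorem volume_ne_zero : (volume : Measure ℍ) ≠ 0 := by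
  intro h0
  have h1 := volume_pos_of_isOpen isOpen_univ ⟨UpperHalfPlane.I, trivial⟩
  rw [h0] at h1
  exact lt_irrefl _ h1

theorem pmean_ofReal {r : ℍ → ℝ} (hN : Nice fun τ => (r τ : ℂ)) {M : ℕ} (hM : 3 ≤ M)
    (hinv : GammaInv M fun τ => (r τ : ℂ)) :
    pmean (fun τ => (r τ : ℂ)) =
      (((covol (volume : Measure ℍ) (GammaGL M))⁻¹ *
        ∫ τ in fdOf (volume : Measure ℍ) (GammaGL M), r τ : ℝ) : ℂ) := by
  rw [pmean_eq_mean hN hM hinv]
  simp only [mean, fdIntegral]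
  rw [integral_complex_ofReal, Complex.real_smul, Complex.ofReal_mul]

end Fermat.Agent.PET
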