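import Fermat.Agent.PET.PMean

/-!
# PET: positivity of `pmean`
-/

namespace Fermat.Agent.PET

open MeasureTheory Set UpperHalfPlane ModularGroup Matrix.SpecialLinearGroup CongruenceSubgroup
open scoped Pointwise Modular MatrixGroups ENNReal NNReal ComplexConjugate

theorem pmean_ofReal_nonneg {r : ℍ → ℝ} (hr : ∀ τ, 0 ≤ r τ) (hN : Nice fun τ => (r τ : ℂ)) :
    ∃ c : ℝ, 0 ≤ c ∧ pmean (fun τ => (r τ : ℂ)) = c := by
  obtain ⟨M, hM, h1⟩ := hN.inv
  have h3 : 3 ≤ 3 * M := by omega
  have h1' := h1.mono (dvd_mul_left M 3)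
  refine ⟨_, ?_, pmean_ofReal hN h3 h1'⟩
  have := countable_GammaGL (3 * M)
  have hc := (hasFD_GammaGL h3).covol_pos volume_ne_zero
  exact mul_nonneg (inv_nonneg.2 hc.le) (integral_nonneg fun τ => hr τ)

theorem eq_zero_of_pmean_ofReal_eq_zero {r : ℍ → ℝ} (hr : ∀ τ, 0 ≤ r τ)
    (hN : Nice fun τ => (r τ : ℂ)) (h0 : pmean (fun τ => (r τ : ℂ)) = 0) : ∀ τ, r τ = 0 := by
  obtain ⟨M, hM, h1⟩ := hN.inv
  have h3 : 3 ≤ 3 * M := by omega
  have h1' := h1.mono (dvd_mul_left M 3)
  have hcount := countable_GammaGL (3 * M)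
  have hfd := hasFD_GammaGL h3
  have hc := hfd.covol_pos volume_ne_zero
  rw [pmean_ofReal hN h3 h1'] at h0
  have h0' : (covol (volume : Measure ℍ) (GammaGL (3 * M)))⁻¹ *
      ∫ τ in fdOf (volume : Measure ℍ) (GammaGL (3 * M)), r τ = 0 := by exact_mod_cast h0
  have hint0 : ∫ τ in fdOf (volume : Measure ℍ) (GammaGL (3 * M)), r τ = 0 := by
    rcases mul_eq_zero.1 h0' with h | h
    · exact absurd (inv_eq_zero.1 h) hc.ne'
    · exact h
  have hrcont : Continuous r := by
    have := Complex.continuous_re.comp hN.cont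
    exact this.congr fun τ => by simp
  have hrint : IntegrableOn r (fdOf (volume : Measure ℍ) (GammaGL (3 * M))) volume := by
    obtain ⟨C, hC⟩ := hN.bdd
    refine Measure.integrableOn_of_bounded (M := C) hfd.measure_fdOf_ne_top
      hrcont.aestronglyMeasurable (Filter.Eventually.of_forall fun τ => ?_)
    simpa using hC τ
  rw [setIntegral_eq_zero_iff_of_nonneg_ae (Filter.Eventually.of_forall hr) hrint] at hint0
  -- the open invariant set where `r ≠ 0` is null
  set t : Set ℍ := {τ | r τ ≠ 0} with ht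
  have htopen : IsOpen t := isOpen_ne_fun hrcont continuous_const
  have hrinv : ∀ g ∈ GammaGL (3 * M), ∀ τ, r (g • τ) = r τ := fun g hg τ => by
    have := h1'.forall_mem_GammaGL g hg τ
    exact_mod_cast this
  have htinv : ∀ g : GammaGL (3 * M), g • t = t := by
    intro g
    ext τ
    rw [mem_smul_set_iff_inv_smul_mem]
    simp only [ht, mem_ofPred_eq]
    rw [Subgroup.smul_def, Subgroup.coe_inv, hrinv _ (inv_mem g.2)]
  have hnull : (volume : Measure ℍ) (t ∩ fdOf (volume : Measure ℍ) (GammaGL (3 * M))) = 0 := by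
    have h2 : ∀ᵐ τ ∂(volume : Measure ℍ).restrict (fdOf (volume : Measure ℍ) (GammaGL (3 * M))),
        τ ∉ t := by
      filter_upwards [hint0] with τ hτ
      simpa [ht] using hτ
    have h3 := ae_iff.1 h2
    simp only [not_not] at h3
    rw [Measure.restrict_apply₀' hfd.isFundamentalDomain_fdOf.nullMeasurableSet] at h3
    exact h3
  have htnull := hfd.isFundamentalDomain_fdOf.measure_zero_of_invariant t htinv hnull
  intro τ
  by_contra hτ
  exact (volume_pos_of_isOpen htopen ⟨τ, hτ⟩).ne' htnull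

end Fermat.Agent.PET
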