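import Fermat.Agent.PET.HeckeSelfAdj
import Fermat.Prelude.Def_CuspForm_HeckeAlgebra

/-!
# PET: the anemic Hecke algebra is reduced

`cpet f g` is the Petersson product of two cusp forms on `Γ₀(N)`.  Every element of
`CuspForm.heckeAlgebra N k S` with `S ⊇ {primes dividing N}` is symmetric for `cpet`
(`isPetSymm_of_mem_heckeAlgebra`), hence the algebra is reduced (`isReduced_heckeAlgebra`).
-/

namespace Fermat.Agent.PET

open MeasureTheory Set UpperHalfPlane ModularGroup Matrix.SpecialLinearGroup CongruenceSubgroup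
open scoped Pointwise Modular MatrixGroups ENNReal NNReal ComplexConjugate ModularForm

variable {N : ℕ} [NeZero N] {k : ℤ}

/-- The Petersson product of two cusp forms on `Γ₀(N)`. -/
noncomputable def cpet (f g : CuspForm (Gamma0 N) k) : ℂ := pet k ⇑f ⇑g

theorem cpet_add_left (f₁ f₂ g : CuspForm (Gamma0 N) k) :
    cpet (f₁ + f₂) g = cpet f₁ g + cpet f₂ g := by
  simp only [cpet, FunLike.coe_add]
  exact pet_add_left (niceForm_cuspForm f₁) (niceForm_cuspForm f₂) (niceForm_cuspForm g)

theorem cpet_add_right (f g₁ g₂ : CuspForm (Gamma0 N) k) :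
    cpet f (g₁ + g₂) = cpet f g₁ + cpet f g₂ := by
  simp only [cpet, FunLike.coe_add]
  exact pet_add_right (niceForm_cuspForm f) (niceForm_cuspForm g₁) (niceForm_cuspForm g₂)

theorem cpet_smul_left (c : ℂ) (f g : CuspForm (Gamma0 N) k) :
    cpet (c • f) g = conj c * cpet f g := by
  simp only [cpet, FunLike.coe_smul]
  exact pet_smul_left (niceForm_cuspForm f) (niceForm_cuspForm g) c

theorem cpet_smul_right (c : ℂ) (f g : CuspForm (Gamma0 N) k) :
    cpet f (c • g) = c * cpet f g := by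
  simp only [cpet, FunLike.coe_smul]
  exact pet_smul_right (niceForm_cuspForm f) (niceForm_cuspForm g) c

theorem cpet_conj_symm (f g : CuspForm (Gamma0 N) k) : cpet g f = conj (cpet f g) :=
  pet_conj_symm (niceForm_cuspForm f) (niceForm_cuspForm g)

theorem cpet_self_nonneg (f : CuspForm (Gamma0 N) k) : ∃ c : ℝ, 0 ≤ c ∧ cpet f f = c :=
  pet_self_nonneg (niceForm_cuspForm f)

theorem eq_zero_of_cpet_self_eq_zero {f : CuspForm (Gamma0 N) k} (h : cpet f f = 0) : f = 0 := by
  have := eq_zero_of_pet_self_eq_zero (niceForm_cuspForm f) h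
  exact DFunLike.coe_injective this

theorem cpet_zero_right (f : CuspForm (Gamma0 N) k) : cpet f 0 = 0 := by
  have := cpet_smul_right 0 f 0
  simpa using this

theorem cpet_zero_left (g : CuspForm (Gamma0 N) k) : cpet 0 g = 0 := by
  have := cpet_smul_left 0 0 g
  simpa using this

/-- Endomorphisms that are symmetric for the Petersson product. -/
def IsPetSymm (t : Module.End ℂ (CuspForm (Gamma0 N) k)) : Prop :=
  ∀ f g, cpet (t f) g = cpet f (t g)

theorem isPetSymm_heckeTLin {ℓ : ℕ} (hℓ : ℓ.Prime) (hℓN : ¬ ℓ ∣ N) :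
    IsPetSymm (CuspForm.heckeTLin k hℓ hℓN) := fun f g => pet_heckeT hℓ hℓN f g

theorem IsPetSymm.add {s t : Module.End ℂ (CuspForm (Gamma0 N) k)} (hs : IsPetSymm s)
    (ht : IsPetSymm t) : IsPetSymm (s + t) := fun f g => by
  simp only [LinearMap.add_apply, cpet_add_left, cpet_add_right, hs f g, ht f g]

omit [NeZero N] in
theorem IsPetSymm.mul {s t : Module.End ℂ (CuspForm (Gamma0 N) k)} (hs : IsPetSymm s)
    (ht : IsPetSymm t) (hc : s * t = t * s) : IsPetSymm (s * t) := fun f g => by
  have h1 : cpet ((s * t) f) g = cpet f ((t * s) g) := by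
    simp only [Module.End.mul_apply]
    rw [hs, ht]
  rw [h1, hc]

theorem isPetSymm_algebraMap_int (n : ℤ) :
    IsPetSymm (algebraMap ℤ (Module.End ℂ (CuspForm (Gamma0 N) k)) n) := fun f g => by
  have h : ∀ f : CuspForm (Gamma0 N) k,
      (algebraMap ℤ (Module.End ℂ (CuspForm (Gamma0 N) k)) n) f = (n : ℂ) • f := by
    intro f
    rw [Algebra.algebraMap_eq_smul_one, LinearMap.smul_apply, Module.End.one_apply]
    exact (Int.cast_smul_eq_zsmul ℂ n f).symm
  rw [h, h, cpet_smul_left, cpet_smul_right]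
  simp

omit [NeZero N] in
theorem IsPetSymm.pow {t : Module.End ℂ (CuspForm (Gamma0 N) k)} (ht : IsPetSymm t) (n : ℕ) :
    IsPetSymm (t ^ n) := by
  induction n with
  | zero => intro f g; simp
  | succ n ih =>
    rw [pow_succ]
    exact ih.mul ht (by rw [← pow_succ, ← pow_succ'])

theorem IsPetSymm.eq_zero_of_sq {t : Module.End ℂ (CuspForm (Gamma0 N) k)} (ht : IsPetSymm t)
    (h : t * t = 0) : t = 0 := by
  apply LinearMap.ext
  intro f
  have h2 : t (t f) = 0 := by
    have := congrArg (fun s : Module.End ℂ (CuspForm (Gamma0 N) k) => s f) h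
    simpa using this
  have h3 : cpet (t f) (t f) = 0 := by
    rw [ht f (t f), h2, cpet_zero_right]
  rw [LinearMap.zero_apply]
  exact eq_zero_of_cpet_self_eq_zero h3

theorem IsPetSymm.eq_zero_of_pow_two_pow {t : Module.End ℂ (CuspForm (Gamma0 N) k)}
    (ht : IsPetSymm t) (m : ℕ) (h : t ^ (2 ^ m) = 0) : t = 0 := by
  induction m with
  | zero => simpa using h
  | succ m ih =>
    refine ih ((ht.pow (2 ^ m)).eq_zero_of_sq ?_)
    rw [← pow_add, ← two_mul, ← pow_succ']
    exact h

theorem IsPetSymm.eq_zero_of_isNilpotent {t : Module.End ℂ (CuspForm (Gamma0 N) k)}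
    (ht : IsPetSymm t) (h : IsNilpotent t) : t = 0 := by
  obtain ⟨n, hn⟩ := h
  exact ht.eq_zero_of_pow_two_pow n (pow_eq_zero_of_le (Nat.lt_two_pow_self).le hn)

variable (N k) in
/-- Every element of the anemic Hecke algebra is symmetric for the Petersson product. -/
theorem isPetSymm_of_mem_heckeAlgebra {S : Set ℕ} (hS : ∀ q : ℕ, q.Prime → q ∣ N → q ∈ S)
    {t : Module.End ℂ (CuspForm (Gamma0 N) k)} (ht : t ∈ CuspForm.heckeAlgebra N k S) :
    IsPetSymm t := by
  induction ht using Algebra.adjoin_induction with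
  | mem x hx =>
    rcases hx with ⟨ℓ, hℓ, hℓN, -, rfl⟩ | ⟨q, hqN, hq, hqS, rfl⟩
    · exact isPetSymm_heckeTLin hℓ hℓN
    · exact absurd (hS q hq hqN) hqS
  | algebraMap r => exact isPetSymm_algebraMap_int r
  | add x y hx hy ihx ihy => exact ihx.add ihy
  | mul x y hx hy ihx ihy =>
    refine ihx.mul ihy ?_
    have := mul_comm (⟨x, hx⟩ : CuspForm.heckeAlgebra N k S) ⟨y, hy⟩
    exact congrArg Subtype.val this

variable (N k) in
/-- **(SS)** The anemic Hecke algebra is reduced. -/
theorem isReduced_heckeAlgebra {S : Set ℕ} (hS : ∀ q : ℕ, q.Prime → q ∣ N → q ∈ S) :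
    IsReduced (CuspForm.heckeAlgebra N k S) := by
  refine ⟨fun x hx => ?_⟩
  apply Subtype.ext
  refine (isPetSymm_of_mem_heckeAlgebra N k hS x.2).eq_zero_of_isNilpotent ?_
  obtain ⟨n, hn⟩ := hx
  exact ⟨n, by simpa using congrArg Subtype.val hn⟩

end Fermat.Agent.PET
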